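import Mathlib

/-!
# Program S : abstract local algebra at a crossing point of a semistable fibre (Mathlib only)

`O` is a Noetherian local ring embedded in a field `K`, with two valuations `v₁, v₂` of `K`
(the two branches through the closed point), elements `ϖ, u, w` generating the maximal ideal,
`u` vanishing on branch `1` and a unit on branch `2`, `w` the other way round, and `u w ∈ ϖ O`.

* `ssna_mem_span₂`, `ssna_mem_span₁` : the centres of `v₂, v₁` are `(w, ϖ)` and `(u, ϖ)`;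
* `ssna_inter`, `ssna_saturation` : `O ∩ ϖ^m (V₁ ∩ V₂) = ϖ^m O` (reduced fibre);
* `ssna_unit` (Lemma V₀) : a unit of `O[1/ϖ]` congruent to a unit of `O` on ONE branch is a unit
  of `O`;
* `ssna_glue` : elements of `O` with prescribed reductions on the two branches, agreeing at the
  closed point;
* `ssna_point` (Lemma P) : if `u w = ϖ^e ε` and `a = ϖ^i α`, `0 < i < e`, then every
  element of `O` vanishing at a horizontal "point" where `u = a` is divisible by `u - a` in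
  `O[1/ϖ]`.
-/

set_option autoImplicit false
set_option linter.unusedSectionVars false

namespace Fermat.Agent.SS

open IsLocalRing

/-- The hypotheses at a crossing point. -/
structure SsNode (O K : Type*) [CommRing O] [IsLocalRing O] [Field K] [Algebra O K]
    {Γ₁ Γ₂ : Type*} [LinearOrderedCommGroupWithZero Γ₁] [LinearOrderedCommGroupWithZero Γ₂]
    (v₁ : Valuation K Γ₁) (v₂ : Valuation K Γ₂) (ϖ u w : O) : Prop where
  inj : Function.Injective (algebraMap O K)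
  max : maximalIdeal O = Ideal.span {ϖ, u, w}
  le₁ : ∀ x : O, v₁ (algebraMap O K x) ≤ 1
  le₂ : ∀ x : O, v₂ (algebraMap O K x) ≤ 1
  ϖ_ne : ϖ ≠ 0
  ϖ₁ : v₁ (algebraMap O K ϖ) < 1
  ϖ₂ : v₂ (algebraMap O K ϖ) < 1
  u₁ : v₁ (algebraMap O K u) < 1
  w₁ : v₁ (algebraMap O K w) = 1
  w₂ : v₂ (algebraMap O K w) < 1
  u₂ : v₂ (algebraMap O K u) = 1
  uw : ∃ ρ : O, u * w = ϖ * ρ

variable {O K : Type*} [CommRing O] [IsLocalRing O] [IsNoetherianRing O] [Field K] [Algebra O K]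
variable {Γ₁ Γ₂ : Type*} [LinearOrderedCommGroupWithZero Γ₁] [LinearOrderedCommGroupWithZero Γ₂]
variable {v₁ : Valuation K Γ₁} {v₂ : Valuation K Γ₂} {ϖ u w : O}

/-- the symmetry exchanging the two branches -/
theorem SsNode.symm (h : SsNode O K v₁ v₂ ϖ u w) : SsNode O K v₂ v₁ ϖ w u where
  inj := h.inj
  max := by
    rw [h.max]
    congr 1
    ext x
    simp only [Set.mem_insert_iff, Set.mem_singleton_iff]
    tauto
  le₁ := h.le₂
  le₂ := h.le₁
  ϖ_ne := h.ϖ_ne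
  ϖ₁ := h.ϖ₂
  ϖ₂ := h.ϖ₁
  u₁ := h.w₂
  w₁ := h.u₂
  w₂ := h.u₁
  u₂ := h.w₁
  uw := by
    obtain ⟨ρ, hρ⟩ := h.uw
    exact ⟨ρ, by rw [mul_comm, hρ]⟩

/-! ### Generalities on a valuation which is `≤ 1` on `O` -/

section Centre

variable {Γ : Type*} [LinearOrderedCommGroupWithZero Γ] (ν : Valuation K Γ)

/-- a unit of `O` has valuation one -/
theorem ssna_val_unit (hle : ∀ x : O, ν (algebraMap O K x) ≤ 1) {x : O} (hx : IsUnit x) :
    ν (algebraMap O K x) = 1 := by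
  obtain ⟨y, hy⟩ := hx.exists_right_inv
  have h1 : ν (algebraMap O K x) * ν (algebraMap O K y) = 1 := by
    rw [← map_mul, ← map_mul, hy, map_one, map_one]
  refine le_antisymm (hle x) ?_
  by_contra hlt
  rw [not_le] at hlt
  have h2 : ν (algebraMap O K x) * ν (algebraMap O K y) < 1 := by
    calc ν (algebraMap O K x) * ν (algebraMap O K y) ≤ ν (algebraMap O K x) * 1 :=
          mul_le_mul' le_rfl (hle y)
      _ = ν (algebraMap O K x) := mul_one _
      _ < 1 := hlt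
  rw [h1] at h2
  exact lt_irrefl _ h2

/-- an element of valuation `< 1` lies in the maximal ideal -/
theorem ssna_mem_max (hle : ∀ x : O, ν (algebraMap O K x) ≤ 1) {x : O}
    (hx : ν (algebraMap O K x) < 1) : x ∈ maximalIdeal O := by
  rw [mem_maximalIdeal, mem_nonunits_iff]
  intro hu
  rw [ssna_val_unit ν hle hu] at hx
  exact lt_irrefl _ hx

theorem ssna_val_add_lt {x y : O} (hx : ν (algebraMap O K x) < 1) (hy : ν (algebraMap O K y) < 1) :
    ν (algebraMap O K (x + y)) < 1 := by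
  rw [map_add]
  exact ν.map_add_lt hx hy

theorem ssna_val_sub_lt {x y : O} (hx : ν (algebraMap O K x) < 1) (hy : ν (algebraMap O K y) < 1) :
    ν (algebraMap O K (x - y)) < 1 := by
  rw [map_sub]
  exact ν.map_sub_lt hx hy

theorem ssna_val_mul_lt (hle : ∀ x : O, ν (algebraMap O K x) ≤ 1) (c : O) {x : O}
    (hx : ν (algebraMap O K x) < 1) : ν (algebraMap O K (c * x)) < 1 := by
  rw [map_mul, map_mul]
  calc ν (algebraMap O K c) * ν (algebraMap O K x) ≤ 1 * ν (algebraMap O K x) :=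
        mul_le_mul' (hle c) le_rfl
    _ = ν (algebraMap O K x) := one_mul _
    _ < 1 := hx

/-- every element of `span {a, b}` has valuation `< 1` if `a, b` do -/
theorem ssna_val_span_pair_lt (hle : ∀ x : O, ν (algebraMap O K x) ≤ 1) {a b x : O}
    (ha : ν (algebraMap O K a) < 1) (hb : ν (algebraMap O K b) < 1)
    (hx : x ∈ Ideal.span {a, b}) : ν (algebraMap O K x) < 1 := by
  obtain ⟨c, d, rfl⟩ := Ideal.mem_span_pair.mp hx
  exact ssna_val_add_lt ν (ssna_val_mul_lt ν hle c ha) (ssna_val_mul_lt ν hle d hb)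

end Centre

/-! ### Krull's intersection theorem in the form used below -/

/-- if `x ∈ I + 𝔪^k` for all `k` then `x ∈ I` -/
theorem ssna_krull (I : Ideal O) (x : O) (hx : ∀ k : ℕ, x ∈ I ⊔ maximalIdeal O ^ k) : x ∈ I := by
  have hne : maximalIdeal O ≠ ⊤ := Ideal.IsPrime.ne_top'
  have hbot := Ideal.iInf_pow_smul_eq_bot_of_isLocalRing (R := O) (M := O ⧸ I)
    (maximalIdeal O) hne
  have hmem : (Ideal.Quotient.mk I x : O ⧸ I) ∈
      (⨅ i : ℕ, maximalIdeal O ^ i • ⊤ : Submodule O (O ⧸ I)) := by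
    rw [Submodule.mem_iInf]
    intro k
    obtain ⟨i, hi, m, hm, him⟩ := Submodule.mem_sup.mp (hx k)
    have h0 : (Ideal.Quotient.mk I x : O ⧸ I) = m • (Ideal.Quotient.mk I 1 : O ⧸ I) := by
      have h1 : m • (Ideal.Quotient.mk I 1 : O ⧸ I) = Ideal.Quotient.mk I (m * 1) := rfl
      rw [h1, mul_one, ← him]
      exact Ideal.Quotient.eq.mpr (by simpa using hi)
    rw [h0]
    exact Submodule.smul_mem_smul hm Submodule.mem_top
  rw [hbot] at hmem
  exact Ideal.Quotient.eq_zero_iff_mem.mp ((Submodule.mem_bot O).mp hmem)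

/-- `(I + (t))^k ≤ I + (t^k)` -/
theorem ssna_pow_sup_le (I : Ideal O) (t : O) (k : ℕ) :
    (I ⊔ Ideal.span {t}) ^ k ≤ I ⊔ Ideal.span {t ^ k} := by
  induction k with
  | zero => simp
  | succ k ih =>
    rw [pow_succ]
    refine (Ideal.mul_mono_left ih).trans ?_
    rw [Ideal.mul_le]
    intro a ha b hb
    obtain ⟨i, hi, c, hc, rfl⟩ := Submodule.mem_sup.mp ha
    obtain ⟨i', hi', d, hd, rfl⟩ := Submodule.mem_sup.mp hb
    obtain ⟨c', rfl⟩ := Ideal.mem_span_singleton'.mp hc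
    obtain ⟨d', rfl⟩ := Ideal.mem_span_singleton'.mp hd
    have e : (i + c' * t ^ k) * (i' + d' * t) =
        (i * (i' + d' * t) + c' * t ^ k * i') + (c' * d') * t ^ (k + 1) := by ring
    rw [e]
    refine Submodule.add_mem_sup (I.add_mem (I.mul_mem_right _ hi) (I.mul_mem_left _ hi')) ?_
    exact Ideal.mem_span_singleton'.mpr ⟨_, rfl⟩


/-! ### Two general lemmas -/

section Aux

variable {Γ : Type*} [LinearOrderedCommGroupWithZero Γ] (ν : Valuation K Γ)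

/-- if `𝔪 = I + (t)`, `ν < 1` on `I` and `ν t = 1`, then `I` is the whole centre of `ν` -/
theorem ssna_centre_aux (I : Ideal O) (t : O) (hmax : maximalIdeal O = I ⊔ Ideal.span {t})
    (hle : ∀ x : O, ν (algebraMap O K x) ≤ 1) (hI : ∀ y ∈ I, ν (algebraMap O K y) < 1)
    (ht : ν (algebraMap O K t) = 1) {x : O} (hx : ν (algebraMap O K x) < 1) : x ∈ I := by
  apply ssna_krull
  intro k
  induction k with
  | zero => simp
  | succ k ih =>
    obtain ⟨i, hi, m, hm, him⟩ := Submodule.mem_sup.mp ih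
    have hm' : m ∈ I ⊔ Ideal.span {t ^ k} :=
      ssna_pow_sup_le I t k (by rw [← hmax]; exact hm)
    obtain ⟨i', hi', c, hc, hic⟩ := Submodule.mem_sup.mp hm'
    obtain ⟨c', rfl⟩ := Ideal.mem_span_singleton'.mp hc
    have h1 : ν (algebraMap O K (c' * t ^ k)) < 1 := by
      have e : c' * t ^ k = x - i - i' := by rw [← him, ← hic]; ring
      rw [e]
      exact ssna_val_sub_lt ν (ssna_val_sub_lt ν hx (hI i hi)) (hI i' hi')
    have h2 : ν (algebraMap O K c') < 1 := by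
      rw [map_mul, map_mul, map_pow, map_pow, ht, one_pow, mul_one] at h1
      exact h1
    have h3 : c' ∈ maximalIdeal O := ssna_mem_max ν hle h2
    have h4 : t ∈ maximalIdeal O := by
      rw [hmax]
      exact Ideal.mem_sup_right (Ideal.mem_span_singleton_self t)
    rw [← him, ← hic, ← add_assoc]
    refine Submodule.add_mem_sup (I.add_mem hi hi') ?_
    rw [pow_succ']
    exact Ideal.mul_mem_mul h3 (Ideal.pow_mem_pow h4 k)

/-- if `𝔪 ≤ J + (ϖ)`, `ν < 1` on `J` and `ν ϖ = 1`, then `J` is the whole centre of `ν` -/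
theorem ssna_point_aux (J : Ideal O) (ϖ : O) (hmax : maximalIdeal O ≤ J ⊔ Ideal.span {ϖ})
    (hϖm : ϖ ∈ maximalIdeal O) (hle : ∀ x : O, ν (algebraMap O K x) ≤ 1) (hJ : ∀ y ∈ J, ν (algebraMap O K y) < 1)
    (hϖ : ν (algebraMap O K ϖ) = 1) {x : O} (hx : ν (algebraMap O K x) < 1) : x ∈ J := by
  have key : ∀ k : ℕ, x ∈ J ⊔ Ideal.span {ϖ ^ k} := by
    intro k
    induction k with
    | zero => simp
    | succ k ih =>
      obtain ⟨j, hj, c, hc, hjc⟩ := Submodule.mem_sup.mp ih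
      obtain ⟨c', rfl⟩ := Ideal.mem_span_singleton'.mp hc
      have h1 : ν (algebraMap O K (c' * ϖ ^ k)) < 1 := by
        have e : c' * ϖ ^ k = x - j := by rw [← hjc]; ring
        rw [e]
        exact ssna_val_sub_lt ν hx (hJ j hj)
      have h2 : ν (algebraMap O K c') < 1 := by
        rw [map_mul, map_mul, map_pow, map_pow, hϖ, one_pow, mul_one] at h1
        exact h1
      have h3 : c' ∈ J ⊔ Ideal.span {ϖ} := hmax (ssna_mem_max ν hle h2)
      obtain ⟨j', hj', d, hd, hjd⟩ := Submodule.mem_sup.mp h3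
      obtain ⟨d', rfl⟩ := Ideal.mem_span_singleton'.mp hd
      have e : x = (j + j' * ϖ ^ k) + d' * ϖ ^ (k + 1) := by
        rw [← hjc, ← hjd]; ring
      rw [e]
      refine Submodule.add_mem_sup (J.add_mem hj (J.mul_mem_right _ hj')) ?_
      exact Ideal.mem_span_singleton'.mpr ⟨_, rfl⟩
  apply ssna_krull
  intro k
  obtain ⟨j, hj, c, hc, hjc⟩ := Submodule.mem_sup.mp (key k)
  obtain ⟨c', rfl⟩ := Ideal.mem_span_singleton'.mp hc
  rw [← hjc]
  refine Submodule.add_mem_sup hj ?_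
  exact Ideal.mul_mem_left _ _ (Ideal.pow_mem_pow hϖm k)

end Aux


/-! ### The crossing point -/

section Node

theorem SsNode.max_eq₂ (h : SsNode O K v₁ v₂ ϖ u w) :
    maximalIdeal O = Ideal.span {w, ϖ} ⊔ Ideal.span {u} := by
  rw [h.max, Ideal.span_insert ϖ, Ideal.span_insert u, Ideal.span_insert w]
  ac_rfl

theorem SsNode.u_mem (h : SsNode O K v₁ v₂ ϖ u w) : u ∈ maximalIdeal O :=
  ssna_mem_max v₁ h.le₁ h.u₁

theorem SsNode.w_mem (h : SsNode O K v₁ v₂ ϖ u w) : w ∈ maximalIdeal O :=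
  ssna_mem_max v₂ h.le₂ h.w₂

theorem SsNode.ϖ_mem (h : SsNode O K v₁ v₂ ϖ u w) : ϖ ∈ maximalIdeal O :=
  ssna_mem_max v₁ h.le₁ h.ϖ₁

/-- the centre of `v₂` is `(w, ϖ)` -/
theorem ssna_mem_span₂ (h : SsNode O K v₁ v₂ ϖ u w) {x : O}
    (hx : v₂ (algebraMap O K x) < 1) : x ∈ Ideal.span {w, ϖ} :=
  ssna_centre_aux v₂ _ u h.max_eq₂ h.le₂
    (fun _ hy => ssna_val_span_pair_lt v₂ h.le₂ h.w₂ h.ϖ₂ hy) h.u₂ hx

/-- the centre of `v₁` is `(u, ϖ)` -/
theorem ssna_mem_span₁ (h : SsNode O K v₁ v₂ ϖ u w) {x : O}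
    (hx : v₁ (algebraMap O K x) < 1) : x ∈ Ideal.span {u, ϖ} :=
  ssna_mem_span₂ h.symm hx

/-- reducedness of the fibre: `𝔭₁ ∩ 𝔭₂ = ϖ O` -/
theorem ssna_inter (h : SsNode O K v₁ v₂ ϖ u w) {y : O}
    (h₁ : v₁ (algebraMap O K y) < 1) (h₂ : v₂ (algebraMap O K y) < 1) :
    ∃ z : O, y = ϖ * z := by
  obtain ⟨α, β, rfl⟩ := Ideal.mem_span_pair.mp (ssna_mem_span₁ h h₁)
  have hα : v₂ (algebraMap O K α) < 1 := by
    have h3 : v₂ (algebraMap O K (α * u)) < 1 := by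
      have e : α * u = (α * u + β * ϖ) - β * ϖ := by ring
      rw [e]
      exact ssna_val_sub_lt v₂ h₂ (ssna_val_mul_lt v₂ h.le₂ β h.ϖ₂)
    rw [map_mul, map_mul, h.u₂, mul_one] at h3
    exact h3
  obtain ⟨γ, δ, rfl⟩ := Ideal.mem_span_pair.mp (ssna_mem_span₂ h hα)
  obtain ⟨ρ, hρ⟩ := h.uw
  refine ⟨γ * ρ + δ * u + β, ?_⟩
  linear_combination γ * hρ

theorem SsNode.val_ϖ_ne₁ (h : SsNode O K v₁ v₂ ϖ u w) : v₁ (algebraMap O K ϖ) ≠ 0 := by
  rw [Ne, Valuation.zero_iff]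
  intro h0
  exact h.ϖ_ne (h.inj (by rw [h0, map_zero]))

theorem SsNode.val_ϖ_ne₂ (h : SsNode O K v₁ v₂ ϖ u w) : v₂ (algebraMap O K ϖ) ≠ 0 :=
  h.symm.val_ϖ_ne₁

/-- saturation: `O ∩ ϖ^m (V₁ ∩ V₂) = ϖ^m O` -/
theorem ssna_saturation (h : SsNode O K v₁ v₂ ϖ u w) (m : ℕ) :
    ∀ y : O, v₁ (algebraMap O K y) ≤ v₁ (algebraMap O K ϖ) ^ m →
      v₂ (algebraMap O K y) ≤ v₂ (algebraMap O K ϖ) ^ m → ∃ z : O, y = ϖ ^ m * z := by
  induction m with
  | zero => intro y _ _; exact ⟨y, by simp⟩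
  | succ m ih =>
    intro y h₁ h₂
    obtain ⟨z, rfl⟩ := ssna_inter h
      (lt_of_le_of_lt h₁ (pow_lt_one₀ zero_le h.ϖ₁ (Nat.succ_ne_zero m)))
      (lt_of_le_of_lt h₂ (pow_lt_one₀ zero_le h.ϖ₂ (Nat.succ_ne_zero m)))
    have k₁ : v₁ (algebraMap O K z) ≤ v₁ (algebraMap O K ϖ) ^ m := by
      rw [map_mul, map_mul, pow_succ'] at h₁
      exact (mul_le_mul_iff_right₀ (zero_lt_iff.mpr h.val_ϖ_ne₁)).mp h₁
    have k₂ : v₂ (algebraMap O K z) ≤ v₂ (algebraMap O K ϖ) ^ m := by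
      rw [map_mul, map_mul, pow_succ'] at h₂
      exact (mul_le_mul_iff_right₀ (zero_lt_iff.mpr h.val_ϖ_ne₂)).mp h₂
    obtain ⟨z', rfl⟩ := ih z k₁ k₂
    exact ⟨z', by ring⟩

/-- an element of `K` which becomes integral after multiplication by `ϖ^m` and is integral for both
valuations lies in `O` -/
theorem ssna_mem_of_val_le (h : SsNode O K v₁ v₂ ϖ u w) (x : K) (m : ℕ) (y : O)
    (hy : x * algebraMap O K ϖ ^ m = algebraMap O K y) (h₁ : v₁ x ≤ 1) (h₂ : v₂ x ≤ 1) :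
    ∃ z : O, algebraMap O K z = x := by
  have k₁ : v₁ (algebraMap O K y) ≤ v₁ (algebraMap O K ϖ) ^ m := by
    rw [← hy, map_mul, map_pow]
    calc v₁ x * v₁ (algebraMap O K ϖ) ^ m ≤ 1 * v₁ (algebraMap O K ϖ) ^ m :=
          mul_le_mul' h₁ le_rfl
      _ = _ := one_mul _
  have k₂ : v₂ (algebraMap O K y) ≤ v₂ (algebraMap O K ϖ) ^ m := by
    rw [← hy, map_mul, map_pow]
    calc v₂ x * v₂ (algebraMap O K ϖ) ^ m ≤ 1 * v₂ (algebraMap O K ϖ) ^ m :=
          mul_le_mul' h₂ le_rfl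
      _ = _ := one_mul _
  obtain ⟨z, rfl⟩ := ssna_saturation h m y k₁ k₂
  refine ⟨z, ?_⟩
  have hne : algebraMap O K ϖ ^ m ≠ 0 :=
    pow_ne_zero _ (fun h0 => h.ϖ_ne (h.inj (by rw [h0, map_zero])))
  rw [map_mul, map_pow, mul_comm] at hy
  exact (mul_left_cancel₀ hne hy).symm

/-- a non-unit plus ... : an element congruent to a unit modulo the centre of `v₁` is a unit -/
theorem ssna_isUnit_of_congr (h : SsNode O K v₁ v₂ ϖ u w) {z η : O} (hη : IsUnit η)
    (hz : v₁ (algebraMap O K (z - η)) < 1) : IsUnit z := by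
  by_contra hnu
  have h1 : z ∈ maximalIdeal O := (mem_maximalIdeal z).mpr hnu
  have h2 : z - η ∈ maximalIdeal O := ssna_mem_max v₁ h.le₁ hz
  have h3 : η ∈ maximalIdeal O := by
    have := (maximalIdeal O).sub_mem h1 h2
    simpa using this
  exact (mem_maximalIdeal η).mp h3 hη

/-- **Lemma V₀**: a unit of `O[1/ϖ]` which is congruent to a unit of `O` along branch `1` is a unit
of `O`. -/
theorem ssna_unit (h : SsNode O K v₁ v₂ ϖ u w) (x : K) (hx : x ≠ 0) (m : ℕ) (y y' : O)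
    (hy : x * algebraMap O K ϖ ^ m = algebraMap O K y)
    (hy' : x⁻¹ * algebraMap O K ϖ ^ m = algebraMap O K y')
    (η : O) (hη : IsUnit η) (hcong : v₁ (x - algebraMap O K η) < 1) :
    ∃ z : O, IsUnit z ∧ algebraMap O K z = x := by
  have hη₁ : v₁ (algebraMap O K η) = 1 := ssna_val_unit v₁ h.le₁ hη
  have hx₁ : v₁ x = 1 := by
    have e : x = (x - algebraMap O K η) + algebraMap O K η := by ring
    rw [e, Valuation.map_add_eq_of_lt_right _ (by rw [hη₁]; exact hcong), hη₁]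
  rcases le_or_gt (v₂ x) 1 with h₂ | h₂
  · obtain ⟨z, hz⟩ := ssna_mem_of_val_le h x m y hy hx₁.le h₂
    refine ⟨z, ?_, hz⟩
    refine ssna_isUnit_of_congr h hη ?_
    rw [map_sub, hz]
    exact hcong
  · exfalso
    have hx₂ : v₂ x⁻¹ < 1 := by
      rw [map_inv₀]
      exact inv_lt_one_of_one_lt₀ h₂
    have hx₁' : v₁ x⁻¹ = 1 := by rw [map_inv₀, hx₁, inv_one]
    obtain ⟨z, hz⟩ := ssna_mem_of_val_le h x⁻¹ m y' hy' hx₁'.le hx₂.le
    obtain ⟨η', hη'⟩ := hη.exists_right_inv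
    have hη'u : IsUnit η' := IsUnit.of_mul_eq_one η (by rw [mul_comm]; exact hη')
    have hηK : algebraMap O K η ≠ 0 := by
      intro h0
      rw [h0, map_zero] at hη₁
      exact zero_ne_one hη₁
    have hη'K : algebraMap O K η' = (algebraMap O K η)⁻¹ := by
      have := congrArg (algebraMap O K) hη'
      rw [map_mul, map_one] at this
      exact eq_inv_of_mul_eq_one_right this
    have hzu : IsUnit z := by
      refine ssna_isUnit_of_congr h hη'u ?_
      rw [map_sub, hz, hη'K]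
      have e : x⁻¹ - (algebraMap O K η)⁻¹ =
          -(x - algebraMap O K η) * (x⁻¹ * (algebraMap O K η)⁻¹) := by
        field_simp
        ring
      rw [e, map_mul, Valuation.map_neg, map_mul, hx₁', map_inv₀, hη₁, inv_one, mul_one, mul_one]
      exact hcong
    have := ssna_val_unit v₂ h.le₂ hzu
    rw [hz] at this
    rw [this] at hx₂
    exact lt_irrefl _ hx₂

/-- elements with prescribed reductions on the two branches which agree at the closed point -/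
theorem ssna_glue (h : SsNode O K v₁ v₂ ϖ u w) (θ₁ θ₂ : O) (hθ : θ₁ - θ₂ ∈ maximalIdeal O) :
    ∃ θ : O, v₁ (algebraMap O K (θ - θ₁)) < 1 ∧ v₂ (algebraMap O K (θ - θ₂)) < 1 := by
  rw [h.max] at hθ
  obtain ⟨a, z, hz, e⟩ := Ideal.mem_span_insert.mp hθ
  obtain ⟨b, c, rfl⟩ := Ideal.mem_span_pair.mp hz
  refine ⟨θ₁ - a * ϖ - b * u, ?_, ?_⟩
  · have e1 : θ₁ - a * ϖ - b * u - θ₁ = -(a * ϖ + b * u) := by ring
    rw [e1, map_neg, Valuation.map_neg]
    exact ssna_val_add_lt v₁ (ssna_val_mul_lt v₁ h.le₁ a h.ϖ₁) (ssna_val_mul_lt v₁ h.le₁ b h.u₁)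
  · have e2 : θ₁ - a * ϖ - b * u - θ₂ = c * w := by
      linear_combination e
    rw [e2]
    exact ssna_val_mul_lt v₂ h.le₂ c h.w₂

end Node


/-! ### Points of the tube -/

section Point

/-- the saturation of `(t)` with respect to `ϖ` : `{x | ∃ m, ϖ^m x ∈ (t)}` -/
def ssnaSat (ϖ t : O) : Ideal O where
  carrier := {x | ∃ m : ℕ, ϖ ^ m * x ∈ Ideal.span {t}}
  add_mem' := by
    rintro a b ⟨m, hm⟩ ⟨n, hn⟩
    refine ⟨m + n, ?_⟩
    have e : ϖ ^ (m + n) * (a + b) = ϖ ^ n * (ϖ ^ m * a) + ϖ ^ m * (ϖ ^ n * b) := by ring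
    rw [e]
    exact Ideal.add_mem _ (Ideal.mul_mem_left _ _ hm) (Ideal.mul_mem_left _ _ hn)
  zero_mem' := ⟨0, by simp⟩
  smul_mem' := by
    rintro c x ⟨m, hm⟩
    refine ⟨m, ?_⟩
    have e : ϖ ^ m * (c • x) = c * (ϖ ^ m * x) := by rw [smul_eq_mul]; ring
    rw [e]
    exact Ideal.mul_mem_left _ _ hm

theorem ssna_mem_sat {ϖ t x : O} : x ∈ ssnaSat ϖ t ↔ ∃ (m : ℕ) (c : O), ϖ ^ m * x = t * c := by
  constructor
  · rintro ⟨m, hm⟩
    obtain ⟨c, hc⟩ := Ideal.mem_span_singleton'.mp hm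
    exact ⟨m, c, by rw [← hc, mul_comm]⟩
  · rintro ⟨m, c, hc⟩
    exact ⟨m, Ideal.mem_span_singleton'.mpr ⟨c, by rw [hc, mul_comm]⟩⟩

variable {Γ : Type*} [LinearOrderedCommGroupWithZero Γ]

/-- elements of the saturation of `(t)` have valuation `< 1` for a valuation `ν ≤ 1` on `O` with
`ν ϖ = 1`, `ν t < 1` -/
theorem ssna_val_sat_lt (ν : Valuation K Γ) (hν : ∀ x : O, ν (algebraMap O K x) ≤ 1) {ϖ t : O}
    (hνϖ : ν (algebraMap O K ϖ) = 1) (hνt : ν (algebraMap O K t) < 1) {y : O}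
    (hy : y ∈ ssnaSat ϖ t) : ν (algebraMap O K y) < 1 := by
  obtain ⟨m, c, hc⟩ := ssna_mem_sat.mp hy
  have h1 := congrArg (fun r => ν (algebraMap O K r)) hc
  simp only [map_mul, map_pow, hνϖ, one_pow, one_mul] at h1
  rw [h1, ← map_mul, ← map_mul, mul_comm]
  exact ssna_val_mul_lt ν hν c hνt

/-- **Lemma P** (points of the annulus): if `u w = ϖ^e ε`, `a = ϖ^i α` with `0 < i < e` and `α` a
unit, then every element of `O` vanishing at a horizontal point where `u = a` is divisible by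
`u - a` in `O[1/ϖ]`. -/
theorem ssna_point (h : SsNode O K v₁ v₂ ϖ u w) {e i : ℕ} (hi : 0 < i) (hie : i < e) {ε α : O}
    (hα : IsUnit α) (huw : u * w = ϖ ^ e * ε) (ν : Valuation K Γ)
    (hν : ∀ x : O, ν (algebraMap O K x) ≤ 1) (hνϖ : ν (algebraMap O K ϖ) = 1)
    (hνu : ν (algebraMap O K (u - ϖ ^ i * α)) < 1) {x : O} (hx : ν (algebraMap O K x) < 1) :
    ∃ (m : ℕ) (c : O), ϖ ^ m * x = (u - ϖ ^ i * α) * c := by
  rw [← ssna_mem_sat]
  refine ssna_point_aux ν _ ϖ ?_ h.ϖ_mem hν (fun y hy => ssna_val_sat_lt ν hν hνϖ hνu hy) hνϖ hx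
  have hϖs : ϖ ∈ ssnaSat ϖ (u - ϖ ^ i * α) ⊔ Ideal.span {ϖ} :=
    Ideal.mem_sup_right (Ideal.mem_span_singleton_self ϖ)
  rw [h.max, Ideal.span_le]
  intro g hg
  simp only [Set.mem_insert_iff, Set.mem_singleton_iff] at hg
  rcases hg with hg | hg | hg
  · rw [hg]; exact hϖs
  · rw [hg]
    have h2 : (u - ϖ ^ i * α) + (ϖ ^ (i - 1) * α) * ϖ ∈
        ssnaSat ϖ (u - ϖ ^ i * α) ⊔ Ideal.span {ϖ} := by
      refine Submodule.add_mem_sup ?_ (Ideal.mem_span_singleton'.mpr ⟨_, rfl⟩)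
      exact ⟨0, by rw [pow_zero, one_mul]; exact Ideal.mem_span_singleton_self _⟩
    have e1 : (u - ϖ ^ i * α) + (ϖ ^ (i - 1) * α) * ϖ = u := by
      obtain ⟨j, rfl⟩ : ∃ j, i = j + 1 := ⟨i - 1, by omega⟩
      simp only [Nat.add_sub_cancel]
      ring
    rw [e1] at h2
    exact h2
  · rw [hg]
    obtain ⟨α', hα'⟩ := hα.exists_left_inv
    obtain ⟨d, rfl⟩ : ∃ d, e = i + (d + 1) := ⟨e - i - 1, by omega⟩
    have h2 : α' * (α * w - ϖ ^ (d + 1) * ε) + (α' * ϖ ^ d * ε) * ϖ ∈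
        ssnaSat ϖ (u - ϖ ^ i * α) ⊔ Ideal.span {ϖ} := by
      refine Submodule.add_mem_sup (Ideal.mul_mem_left _ _ ?_)
        (Ideal.mem_span_singleton'.mpr ⟨_, rfl⟩)
      refine ⟨i, Ideal.mem_span_singleton'.mpr ⟨-w, ?_⟩⟩
      linear_combination (-1 : O) * huw
    have e1 : α' * (α * w - ϖ ^ (d + 1) * ε) + (α' * ϖ ^ d * ε) * ϖ = w := by
      linear_combination w * hα'
    rw [e1] at h2
    exact h2

end Point

/-! ### Non-crossing (smooth) closed points -/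

/-- The hypotheses at a smooth closed point of the special fibre. -/
structure SsSmooth (O K : Type*) [CommRing O] [IsLocalRing O] [Field K] [Algebra O K]
    {Γ₁ : Type*} [LinearOrderedCommGroupWithZero Γ₁]
    (v₁ : Valuation K Γ₁) (ϖ z : O) : Prop where
  inj : Function.Injective (algebraMap O K)
  max : maximalIdeal O = Ideal.span {ϖ, z}
  le₁ : ∀ x : O, v₁ (algebraMap O K x) ≤ 1
  ϖ_ne : ϖ ≠ 0
  ϖ₁ : v₁ (algebraMap O K ϖ) < 1
  z₁ : v₁ (algebraMap O K z) = 1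

section Smooth

variable {z : O} {Γ : Type*} [LinearOrderedCommGroupWithZero Γ]

theorem SsSmooth.ϖ_mem (h : SsSmooth O K v₁ ϖ z) : ϖ ∈ maximalIdeal O :=
  ssna_mem_max v₁ h.le₁ h.ϖ₁

/-- the centre of `v₁` is `(ϖ)` -/
theorem ssns_mem_span (h : SsSmooth O K v₁ ϖ z) {x : O} (hx : v₁ (algebraMap O K x) < 1) :
    ∃ y : O, x = ϖ * y := by
  have h1 : x ∈ Ideal.span {ϖ} := by
    refine ssna_centre_aux v₁ _ z ?_ h.le₁ ?_ h.z₁ hx
    · rw [h.max, Ideal.span_insert]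
    · intro y hy
      obtain ⟨c, rfl⟩ := Ideal.mem_span_singleton'.mp hy
      exact ssna_val_mul_lt v₁ h.le₁ c h.ϖ₁
  obtain ⟨y, rfl⟩ := Ideal.mem_span_singleton'.mp h1
  exact ⟨y, mul_comm _ _⟩

theorem SsSmooth.val_ϖ_ne (h : SsSmooth O K v₁ ϖ z) : v₁ (algebraMap O K ϖ) ≠ 0 := by
  rw [Ne, Valuation.zero_iff]
  intro h0
  exact h.ϖ_ne (h.inj (by rw [h0, map_zero]))

theorem ssns_saturation (h : SsSmooth O K v₁ ϖ z) (m : ℕ) :
    ∀ y : O, v₁ (algebraMap O K y) ≤ v₁ (algebraMap O K ϖ) ^ m → ∃ y' : O, y = ϖ ^ m * y' := by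
  induction m with
  | zero => intro y _; exact ⟨y, by simp⟩
  | succ m ih =>
    intro y h₁
    obtain ⟨y₁, rfl⟩ := ssns_mem_span h
      (lt_of_le_of_lt h₁ (pow_lt_one₀ zero_le h.ϖ₁ (Nat.succ_ne_zero m)))
    have k₁ : v₁ (algebraMap O K y₁) ≤ v₁ (algebraMap O K ϖ) ^ m := by
      rw [map_mul, map_mul, pow_succ'] at h₁
      exact (mul_le_mul_iff_right₀ (zero_lt_iff.mpr h.val_ϖ_ne)).mp h₁
    obtain ⟨y', rfl⟩ := ih y₁ k₁
    exact ⟨y', by ring⟩

theorem ssns_mem_of_val_le (h : SsSmooth O K v₁ ϖ z) (x : K) (m : ℕ) (y : O)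
    (hy : x * algebraMap O K ϖ ^ m = algebraMap O K y) (h₁ : v₁ x ≤ 1) :
    ∃ y' : O, algebraMap O K y' = x := by
  have k₁ : v₁ (algebraMap O K y) ≤ v₁ (algebraMap O K ϖ) ^ m := by
    rw [← hy, map_mul, map_pow]
    calc v₁ x * v₁ (algebraMap O K ϖ) ^ m ≤ 1 * v₁ (algebraMap O K ϖ) ^ m :=
          mul_le_mul' h₁ le_rfl
      _ = _ := one_mul _
  obtain ⟨y', rfl⟩ := ssns_saturation h m y k₁
  refine ⟨y', ?_⟩
  have hne : algebraMap O K ϖ ^ m ≠ 0 :=
    pow_ne_zero _ (fun h0 => h.ϖ_ne (h.inj (by rw [h0, map_zero])))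
  rw [map_mul, map_pow, mul_comm] at hy
  exact (mul_left_cancel₀ hne hy).symm

/-- **Lemma V₀ at a smooth point** -/
theorem ssns_unit (h : SsSmooth O K v₁ ϖ z) (x : K) (m : ℕ) (y : O)
    (hy : x * algebraMap O K ϖ ^ m = algebraMap O K y)
    (η : O) (hη : IsUnit η) (hcong : v₁ (x - algebraMap O K η) < 1) :
    ∃ y' : O, IsUnit y' ∧ algebraMap O K y' = x := by
  have hη₁ : v₁ (algebraMap O K η) = 1 := ssna_val_unit v₁ h.le₁ hη
  have hx₁ : v₁ x = 1 := by
    have e : x = (x - algebraMap O K η) + algebraMap O K η := by ring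
    rw [e, Valuation.map_add_eq_of_lt_right _ (by rw [hη₁]; exact hcong), hη₁]
  obtain ⟨y', hy'⟩ := ssns_mem_of_val_le h x m y hy hx₁.le
  refine ⟨y', ?_, hy'⟩
  by_contra hnu
  have h1 : y' ∈ maximalIdeal O := (mem_maximalIdeal y').mpr hnu
  have h2 : y' - η ∈ maximalIdeal O := by
    refine ssna_mem_max v₁ h.le₁ ?_
    rw [map_sub, hy']
    exact hcong
  have h3 : η ∈ maximalIdeal O := by
    have := (maximalIdeal O).sub_mem h1 h2
    simpa using this
  exact (mem_maximalIdeal η).mp h3 hη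

/-- **Lemma P at a smooth point**: every element of `O` vanishing at a horizontal point where
`z = ϖ α` is divisible by `z - ϖ α` in `O`. -/
theorem ssns_point (h : SsSmooth O K v₁ ϖ z) (α : O) (ν : Valuation K Γ)
    (hν : ∀ x : O, ν (algebraMap O K x) ≤ 1) (hνϖ : ν (algebraMap O K ϖ) = 1)
    (hνz : ν (algebraMap O K (z - ϖ * α)) < 1) {x : O} (hx : ν (algebraMap O K x) < 1) :
    ∃ c : O, x = (z - ϖ * α) * c := by
  have h1 : x ∈ Ideal.span {z - ϖ * α} := by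
    refine ssna_point_aux ν _ ϖ ?_ h.ϖ_mem hν ?_ hνϖ hx
    · rw [h.max, Ideal.span_le]
      intro g hg
      simp only [Set.mem_insert_iff, Set.mem_singleton_iff] at hg
      rcases hg with hg | hg
      · rw [hg]; exact Ideal.mem_sup_right (Ideal.mem_span_singleton_self ϖ)
      · rw [hg]
        have h2 : (z - ϖ * α) + α * ϖ ∈ Ideal.span {z - ϖ * α} ⊔ Ideal.span {ϖ} :=
          Submodule.add_mem_sup (Ideal.mem_span_singleton_self _)
            (Ideal.mem_span_singleton'.mpr ⟨_, rfl⟩)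
        have e1 : (z - ϖ * α) + α * ϖ = z := by ring
        rw [e1] at h2
        exact h2
    · intro y hy
      obtain ⟨c, rfl⟩ := Ideal.mem_span_singleton'.mp hy
      exact ssna_val_mul_lt ν hν c hνz
  obtain ⟨c, rfl⟩ := Ideal.mem_span_singleton'.mp h1
  exact ⟨c, mul_comm _ _⟩

end Smooth

end Fermat.Agent.SS
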