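import Mathlib

/-!
# Program S (S34), leaf (K2), abstract part

`F` a field, `V ⊆ F` a subring which is "a discrete valuation ring with uniformiser `ϖ` in
ambient-field form" : every `f ≠ 0` of `F` is `ϖ ^ a * e` with `e, e⁻¹ ∈ V` (and `ϖ⁻¹ ∉ V`).
`σ, τ` ring automorphisms of `F` with `σ V = V`, `τ V = V`, acting trivially on `V / ϖ V`.
Then for every `f ≠ 0` the double difference `σ τ f * f / (σ f * τ f)` is `≡ 1 mod ϖ V`.

No commutation of `σ` and `τ` is needed, and `ϖ` need not be fixed.   Prefix `ssk2_`.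
-/

set_option autoImplicit false

namespace Fermat.Agent.SS

variable {F : Type*} [Field F]

/-- `x ∈ ϖ V` (ambient form). -/
def Ssk2Small (V : Subring F) (ϖ : F) (x : F) : Prop := ∃ v ∈ V, x = ϖ * v

/-- ambient-field form of "`V` is a DVR of `F` with uniformiser `ϖ`". -/
structure Ssk2Unif (V : Subring F) (ϖ : F) : Prop where
  mem : ϖ ∈ V
  ne_zero : ϖ ≠ 0
  inv_not_mem : ϖ⁻¹ ∉ V
  factor : ∀ f : F, f ≠ 0 → ∃ (a : ℤ) (e : F), e ∈ V ∧ e⁻¹ ∈ V ∧ f = ϖ ^ a * e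

/-- `σ` preserves `V` and acts trivially on `V / ϖ V`. -/
structure Ssk2Triv (V : Subring F) (ϖ : F) (σ : F ≃+* F) : Prop where
  map_mem : ∀ x, x ∈ V → σ x ∈ V
  symm_mem : ∀ x, x ∈ V → σ.symm x ∈ V
  triv : ∀ x, x ∈ V → Ssk2Small V ϖ (σ x - x)

namespace Ssk2Small

variable {V : Subring F} {ϖ : F}

theorem add {x y : F} (hx : Ssk2Small V ϖ x) (hy : Ssk2Small V ϖ y) : Ssk2Small V ϖ (x + y) := by
  obtain ⟨v, hv, rfl⟩ := hx
  obtain ⟨w, hw, rfl⟩ := hy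
  exact ⟨v + w, V.add_mem hv hw, by ring⟩

theorem neg {x : F} (hx : Ssk2Small V ϖ x) : Ssk2Small V ϖ (-x) := by
  obtain ⟨v, hv, rfl⟩ := hx
  exact ⟨-v, V.neg_mem hv, by ring⟩

theorem sub {x y : F} (hx : Ssk2Small V ϖ x) (hy : Ssk2Small V ϖ y) : Ssk2Small V ϖ (x - y) := by
  rw [sub_eq_add_neg]
  exact hx.add hy.neg

theorem mul_left {x : F} (hx : Ssk2Small V ϖ x) {y : F} (hy : y ∈ V) : Ssk2Small V ϖ (y * x) := by
  obtain ⟨v, hv, rfl⟩ := hx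
  exact ⟨y * v, V.mul_mem hy hv, by ring⟩

theorem mul_right {x : F} (hx : Ssk2Small V ϖ x) {y : F} (hy : y ∈ V) : Ssk2Small V ϖ (x * y) := by
  rw [mul_comm]
  exact hx.mul_left hy

theorem zero : Ssk2Small V ϖ 0 := ⟨0, V.zero_mem, by ring⟩

theorem mem (hϖ : ϖ ∈ V) {x : F} (hx : Ssk2Small V ϖ x) : x ∈ V := by
  obtain ⟨v, hv, rfl⟩ := hx
  exact V.mul_mem hϖ hv

end Ssk2Small

/-- `x ≡ 1 mod ϖ V`. -/
def Ssk2One (V : Subring F) (ϖ : F) (x : F) : Prop := Ssk2Small V ϖ (x - 1)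

namespace Ssk2One

variable {V : Subring F} {ϖ : F}

theorem one : Ssk2One V ϖ 1 := by
  unfold Ssk2One
  rw [sub_self]
  exact Ssk2Small.zero

theorem mem (hϖ : ϖ ∈ V) {x : F} (hx : Ssk2One V ϖ x) : x ∈ V := by
  have h := Ssk2Small.mem hϖ hx
  have : x = (x - 1) + 1 := by ring
  rw [this]
  exact V.add_mem h V.one_mem

theorem mul (hϖ : ϖ ∈ V) {x y : F} (hx : Ssk2One V ϖ x) (hy : Ssk2One V ϖ y) :
    Ssk2One V ϖ (x * y) := by
  unfold Ssk2One at *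
  have h : x * y - 1 = (x - 1) * y + (y - 1) := by ring
  rw [h]
  exact (Ssk2Small.mul_right hx (Ssk2One.mem hϖ hy)).add hy

theorem ne_zero (hU : Ssk2Unif V ϖ) {x : F} (hx : Ssk2One V ϖ x) : x ≠ 0 := by
  rintro rfl
  obtain ⟨v, hv, h⟩ := hx
  apply hU.inv_not_mem
  have hv0 : v ≠ 0 := by
    rintro rfl
    simp at h
  have : ϖ⁻¹ = -v := by
    have h1 : ϖ * (-v) = 1 := by
      have : ϖ * v = -1 := by rw [← h]; ring
      rw [mul_neg, this, neg_neg]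
    exact inv_eq_of_mul_eq_one_right h1
  rw [this]
  exact V.neg_mem hv

/-- a `1`-unit has its inverse in `V` : here we use the factorisation property. -/
theorem inv_mem (hU : Ssk2Unif V ϖ) {x : F} (hx : Ssk2One V ϖ x) : x⁻¹ ∈ V := by
  have hx0 := hx.ne_zero hU
  obtain ⟨a, e, he, he', hxe⟩ := hU.factor x hx0
  have hϖ0 := hU.ne_zero
  have he0 : e ≠ 0 := by
    rintro rfl
    simp at hxe
    exact hx0 hxe
  -- a = 0 : if a > 0 then x ∈ ϖ V so 1 ∈ ϖ V ; if a < 0 then ϖ^(-a) x = e ..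
  rcases lt_trichotomy a 0 with ha | ha | ha
  · -- a < 0 : x * ϖ ^ (-a) = e, with -a ≥ 1, so e ∈ ϖ V, so e⁻¹ ... contradiction: ϖ⁻¹ = (e/ϖ) e⁻¹
    exfalso
    apply hU.inv_not_mem
    obtain ⟨n, rfl⟩ : ∃ n : ℕ, a = -((n : ℤ) + 1) := ⟨(-a - 1).toNat, by omega⟩
    have h1 : e = ϖ ^ (n + 1) * x := by
      rw [hxe, zpow_neg, ← mul_assoc]
      have : (ϖ ^ (n + 1) : F) = ϖ ^ ((n : ℤ) + 1) := by
        rw [← zpow_natCast]; push_cast; rfl
      rw [this, mul_inv_cancel₀ (zpow_ne_zero _ hϖ0), one_mul]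
    have h2 : ϖ⁻¹ = ϖ ^ n * x * e⁻¹ := by
      rw [h1, pow_succ]
      field_simp
    rw [h2]
    exact V.mul_mem (V.mul_mem (V.pow_mem hU.mem n) (hx.mem hU.mem)) he'
  · subst ha
    rw [zpow_zero, one_mul] at hxe
    rw [hxe]
    exact he'
  · -- a > 0 : x = ϖ * (ϖ^(a-1) e) ∈ ϖ V, then 1 = x - (x - 1) ∈ ϖ V
    exfalso
    apply hU.inv_not_mem
    obtain ⟨n, rfl⟩ : ∃ n : ℕ, a = (n : ℤ) + 1 := ⟨(a - 1).toNat, by omega⟩
    obtain ⟨v, hv, hxv⟩ := hx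
    have h1 : x = ϖ * (ϖ ^ n * e) := by
      rw [hxe, ← mul_assoc, ← pow_succ']
      congr 1
      rw [← zpow_natCast]; push_cast; rfl
    have h2 : ϖ⁻¹ = ϖ ^ n * e - v := by
      have : ϖ * (ϖ ^ n * e - v) = 1 := by
        rw [mul_sub, ← h1, ← hxv]; ring
      exact inv_eq_of_mul_eq_one_right this
    rw [h2]
    exact V.sub_mem (V.mul_mem (V.pow_mem hU.mem n) he) hv

theorem inv (hU : Ssk2Unif V ϖ) {x : F} (hx : Ssk2One V ϖ x) : Ssk2One V ϖ x⁻¹ := by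
  have hx0 := hx.ne_zero hU
  have hinv := hx.inv_mem hU
  unfold Ssk2One at *
  have h : x⁻¹ - 1 = -((x - 1) * x⁻¹) := by
    field_simp
    ring
  rw [h]
  exact (Ssk2Small.mul_right hx hinv).neg

theorem div (hU : Ssk2Unif V ϖ) {x y : F} (hx : Ssk2One V ϖ x) (hy : Ssk2One V ϖ y) :
    Ssk2One V ϖ (x / y) := by
  rw [div_eq_mul_inv]
  exact hx.mul hU.mem (hy.inv hU)

theorem zpow (hU : Ssk2Unif V ϖ) {x : F} (hx : Ssk2One V ϖ x) (a : ℤ) : Ssk2One V ϖ (x ^ a) := by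
  have hnat : ∀ n : ℕ, Ssk2One V ϖ (x ^ n) := by
    intro n
    induction n with
    | zero => rw [pow_zero]; exact Ssk2One.one
    | succ n ih => rw [pow_succ]; exact ih.mul hU.mem hx
  obtain ⟨n, rfl | rfl⟩ := a.eq_nat_or_neg
  · rw [zpow_natCast]; exact hnat n
  · rw [zpow_neg, zpow_natCast]; exact (hnat n).inv hU

end Ssk2One

variable {V : Subring F} {ϖ : F}

/-- `σ` maps `ϖ V` into itself as soon as `σ ϖ ∈ ϖ V`. -/
theorem Ssk2Triv.map_small {σ : F ≃+* F} (hσ : Ssk2Triv V ϖ σ) (hU : Ssk2Unif V ϖ) {x : F}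
    (hx : Ssk2Small V ϖ x) : Ssk2Small V ϖ (σ x) := by
  have h1 : Ssk2Small V ϖ (σ x - x) := hσ.triv x (hx.mem hU.mem)
  have : σ x = (σ x - x) + x := by ring
  rw [this]
  exact h1.add hx

/-- for a unit `e` of `V` : `σ e / e ≡ 1`. -/
theorem Ssk2Triv.unit_ratio {σ : F ≃+* F} (hσ : Ssk2Triv V ϖ σ) {e : F} (he : e ∈ V)
    (he' : e⁻¹ ∈ V) (he0 : e ≠ 0) : Ssk2One V ϖ (σ e / e) := by
  unfold Ssk2One
  have h : σ e / e - 1 = (σ e - e) * e⁻¹ := by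
    field_simp
  rw [h]
  exact (hσ.triv e he).mul_right he'

/-- `σ` maps `1`-units to `1`-units. -/
theorem Ssk2Triv.map_one {σ : F ≃+* F} (hσ : Ssk2Triv V ϖ σ) (hU : Ssk2Unif V ϖ) {x : F}
    (hx : Ssk2One V ϖ x) : Ssk2One V ϖ (σ x) := by
  unfold Ssk2One at *
  have : σ x - 1 = σ (x - 1) := by simp
  rw [this]
  exact hσ.map_small hU hx

/-- `σ ϖ / ϖ` is a unit of `V`. -/
theorem Ssk2Triv.unif_ratio {σ : F ≃+* F} (hσ : Ssk2Triv V ϖ σ) (hU : Ssk2Unif V ϖ) :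
    σ ϖ / ϖ ∈ V ∧ (σ ϖ / ϖ)⁻¹ ∈ V := by
  have hϖ0 := hU.ne_zero
  have hσ0 : σ ϖ ≠ 0 := by simpa using hϖ0
  -- σ ϖ ∈ ϖ V
  have h1 : Ssk2Small V ϖ (σ ϖ) := hσ.map_small hU ⟨1, V.one_mem, by ring⟩
  obtain ⟨c, hc, hcϖ⟩ := h1
  have hc_eq : σ ϖ / ϖ = c := by rw [hcϖ]; field_simp
  refine ⟨hc_eq ▸ hc, ?_⟩
  -- the inverse : apply σ to the relation  ϖ = σ⁻¹ ϖ ...  we use the factorisation of c
  have hc0 : c ≠ 0 := by
    rintro rfl
    rw [mul_zero] at hcϖ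
    exact hσ0 hcϖ
  obtain ⟨a, e, he, he', hce⟩ := hU.factor c hc0
  have he0 : e ≠ 0 := by
    rintro rfl
    rw [mul_zero] at hce
    exact hc0 hce
  rw [hc_eq]
  rcases lt_trichotomy a 0 with ha | ha | ha
  · exfalso
    apply hU.inv_not_mem
    obtain ⟨n, rfl⟩ : ∃ n : ℕ, a = -((n : ℤ) + 1) := ⟨(-a - 1).toNat, by omega⟩
    have h1 : e = ϖ ^ (n + 1) * c := by
      rw [hce, zpow_neg, ← mul_assoc]
      have : (ϖ ^ (n + 1) : F) = ϖ ^ ((n : ℤ) + 1) := by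
        rw [← zpow_natCast]; push_cast; rfl
      rw [this, mul_inv_cancel₀ (zpow_ne_zero _ hϖ0), one_mul]
    have h2 : ϖ⁻¹ = ϖ ^ n * c * e⁻¹ := by
      rw [h1, pow_succ]
      field_simp
    rw [h2]
    exact V.mul_mem (V.mul_mem (V.pow_mem hU.mem n) hc) he'
  · subst ha
    rw [zpow_zero, one_mul] at hce
    rw [hce]
    exact he'
  · -- a > 0 : σ ϖ ∈ ϖ² V ; then ϖ = σ⁻¹ (σ ϖ) ∈ (σ⁻¹ ϖ)² V ⊆ ϖ² V : contradiction
    exfalso
    apply hU.inv_not_mem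
    obtain ⟨n, rfl⟩ : ∃ n : ℕ, a = (n : ℤ) + 1 := ⟨(a - 1).toNat, by omega⟩
    -- c = ϖ * d with d ∈ V
    have hcd : c = ϖ * (ϖ ^ n * e) := by
      rw [hce, ← mul_assoc, ← pow_succ']
      congr 1
      rw [← zpow_natCast]; push_cast; rfl
    set d := ϖ ^ n * e with hd
    have hdV : d ∈ V := V.mul_mem (V.pow_mem hU.mem n) he
    -- σ⁻¹ ϖ ∈ ϖ V as well
    have hs : Ssk2Small V ϖ (σ.symm ϖ) := by
      have h2 : Ssk2Small V ϖ (σ (σ.symm ϖ) - σ.symm ϖ) := hσ.triv _ (hσ.symm_mem _ hU.mem)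
      rw [RingEquiv.apply_symm_apply] at h2
      have : σ.symm ϖ = ϖ - (ϖ - σ.symm ϖ) := by ring
      rw [this]
      exact (show Ssk2Small V ϖ ϖ from ⟨1, V.one_mem, by ring⟩).sub h2
    obtain ⟨s, hsV, hsϖ⟩ := hs
    -- ϖ = σ⁻¹(σ ϖ) = σ⁻¹(ϖ * ϖ * d) = (ϖ s)^2 σ⁻¹ d
    have h3 : ϖ = (ϖ * s) * (ϖ * s) * σ.symm d := by
      have : σ ϖ = ϖ * ϖ * d := by rw [hcϖ, hcd]; ring
      calc ϖ = σ.symm (σ ϖ) := (σ.symm_apply_apply ϖ).symm
        _ = σ.symm (ϖ * ϖ * d) := by rw [this]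
        _ = (ϖ * s) * (ϖ * s) * σ.symm d := by
            rw [map_mul, map_mul, hsϖ]
    have h4 : ϖ * (s * s * σ.symm d) = 1 := by
      have h5 : ϖ * (ϖ * (s * s * σ.symm d)) = ϖ * 1 := by
        rw [mul_one]
        conv_rhs => rw [h3]
        ring
      exact mul_left_cancel₀ hϖ0 h5
    rw [inv_eq_of_mul_eq_one_right h4]
    exact V.mul_mem (V.mul_mem hsV hsV) (hσ.symm_mem _ hdV)

/-- **(K2), abstract.**  The double difference of any `f ≠ 0` is a `1`-unit of `V`. -/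
theorem ssk2_main {σ τ : F ≃+* F} (hU : Ssk2Unif V ϖ) (hσ : Ssk2Triv V ϖ σ)
    (hτ : Ssk2Triv V ϖ τ) (f : F) (hf : f ≠ 0) :
    Ssk2One V ϖ (σ (τ f) * f / (σ f * τ f)) := by
  have hϖ0 := hU.ne_zero
  obtain ⟨a, e, he, he', hfe⟩ := hU.factor f hf
  have he0 : e ≠ 0 := by
    rintro rfl
    rw [mul_zero] at hfe
    exact hf hfe
  have hτϖ0 : τ ϖ ≠ 0 := by simpa using hϖ0
  have hτe0 : τ e ≠ 0 := by simpa using he0
  have hτf0 : τ f ≠ 0 := by simpa using hf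
  have hσf0 : σ f ≠ 0 := by simpa using hf
  obtain ⟨hc, hc'⟩ := hτ.unif_ratio hU
  set c := τ ϖ / ϖ with hcdef
  have hc0 : c ≠ 0 := div_ne_zero hτϖ0 hϖ0
  set ε := τ e / e with hεdef
  have hε : Ssk2One V ϖ ε := hτ.unit_ratio he he' he0
  have hε0 : ε ≠ 0 := div_ne_zero hτe0 he0
  -- τ f / f = c ^ a * ε
  have hg : τ f / f = c ^ a * ε := by
    rw [hfe, map_mul, map_zpow₀, hcdef, hεdef, div_zpow]
    field_simp
  have hkey : σ (τ f) * f / (σ f * τ f) = σ (τ f / f) / (τ f / f) := by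
    rw [map_div₀]
    field_simp
  clear_value c ε
  rw [hkey, hg, map_mul, map_zpow₀]
  have h1 : σ c ^ a * σ ε / (c ^ a * ε) = (σ c / c) ^ a * (σ ε / ε) := by
    rw [div_zpow, mul_div_mul_comm]
  rw [h1]
  exact ((hσ.unit_ratio hc hc' hc0).zpow hU a).mul hU.mem ((hσ.map_one hU hε).div hU hε)

/-- the triviality on `V / ϖ V` may be checked on ring generators : if `S ⊆ V` is a subring,
`y ∈ V`, every element of `V` is congruent mod `ϖ V` to an element of the subring generated by `S`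
and `y`, `σ y = y`, and `σ s - s ∈ ϖ V` for `s ∈ S`, then `σ` is trivial on `V / ϖ V`. -/
theorem ssk2_triv_of_gen {σ : F ≃+* F}
    (hmap : ∀ x, x ∈ V → σ x ∈ V) (hsymm : ∀ x, x ∈ V → σ.symm x ∈ V)
    (hϖ : Ssk2Small V ϖ (σ ϖ))
    (G : Set F) (hG : ∀ s ∈ G, Ssk2Small V ϖ (σ s - s)) (hGV : G ⊆ V)
    (hres : ∀ x, x ∈ V → ∃ b ∈ Subring.closure G, Ssk2Small V ϖ (x - b)) :
    Ssk2Triv V ϖ σ := by
  refine ⟨hmap, hsymm, ?_⟩
  have hcl : Subring.closure G ≤ V := Subring.closure_le.2 hGV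
  -- on the closure
  have h1 : ∀ b ∈ Subring.closure G, Ssk2Small V ϖ (σ b - b) := by
    intro b hb
    induction hb using Subring.closure_induction with
    | mem x hx => exact hG x hx
    | zero => simp only [map_zero, sub_self]; exact Ssk2Small.zero
    | one => simp only [map_one, sub_self]; exact Ssk2Small.zero
    | add x y hx hy ihx ihy =>
      have : σ (x + y) - (x + y) = (σ x - x) + (σ y - y) := by rw [map_add]; ring
      rw [this]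
      exact ihx.add ihy
    | neg x hx ih =>
      have : σ (-x) - -x = -(σ x - x) := by rw [map_neg]; ring
      rw [this]
      exact ih.neg
    | mul x y hx hy ihx ihy =>
      have : σ (x * y) - x * y = (σ x - x) * σ y + x * (σ y - y) := by rw [map_mul]; ring
      rw [this]
      exact (ihx.mul_right (hmap _ (hcl hy))).add (ihy.mul_left (hcl hx))
  -- σ preserves ϖ V
  have h2 : ∀ x, Ssk2Small V ϖ x → Ssk2Small V ϖ (σ x) := by
    rintro x ⟨v, hv, rfl⟩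
    rw [map_mul]
    exact hϖ.mul_right (hmap v hv)
  intro x hx
  obtain ⟨b, hb, hxb⟩ := hres x hx
  have : σ x - x = σ (x - b) + (σ b - b) - (x - b) := by rw [map_sub]; ring
  rw [this]
  exact ((h2 _ hxb).add (h1 b hb)).sub hxb

end Fermat.Agent.SS
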