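import Mathlib
import Fermat.Agent.SS.K2
import Fermat.Agent.SS.Val.Gauss2
import Fermat.Agent.SS.NF.Defs

/-!
# Program S (S34), leaf (K2) : from the two extensions of the Gauss valuation to (C1) and (C2)

Part I (ambient field `F`, `R ⊂ F` a DVR, `h : SsvAmb R ϖ y Ξ F₁ F₂ G`) : a ring automorphism `σ`
of `F` with `σ R ⊆ R`, `σ ≡ id mod ϖ R` on `R` and `σ y = y` (`Ssk2vFix`) preserves `V₁`, `V₂` and
acts trivially on `V_i / ϖ V_i`; hence the double difference of every `f ≠ 0` is `≡ 1` at `V₁`, `V₂`.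

Part II (the S18/T setting) : (C2) `S18DvdGauss hϖ t (ssnfDD σ τ f - 1)` and (C1) `SsInertial ϖ t γ`.
Prefix `ssk2v_`.
-/

set_option autoImplicit false
set_option linter.unusedSectionVars false
set_option linter.unusedVariables false

noncomputable section

namespace Fermat.Agent.SS

open Polynomial IsLocalRing IsDedekindDomain WithZero Fermat.Agent.S18 AlgebraicCurve IntermediateField

section Ambient

variable {F : Type*} [Field F] {R : Subring F} [IsDiscreteValuationRing ↥R]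
variable {ϖ : ↥R} {y : F} {Ξ F₁ F₂ G : (↥R)[X]}

/-- `V₁` is a DVR with uniformiser `ϖ`, in the ambient form of `SS/K2.lean`. -/
theorem ssk2v_unif₁ (h : SsvAmb R ϖ y Ξ F₁ F₂ G) : Ssk2Unif h.V₁.toSubring (ϖ : F) := by
  haveI := h.data.isDedekindDomain
  haveI := h.isFractionRing
  have hv : h.data.v₁.valuation F ((ϖ : ↥R) : F) = exp (-1 : ℤ) := h.data.valuation_unif₁ F
  have hϖ0 : ((ϖ : ↥R) : F) ≠ 0 := fun h0 => h.irr.ne_zero (Subtype.ext h0)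
  have hnon : ((ϖ : ↥R) : F) ∈ h.V₁.nonunits := h.unif_mem₁
  refine ⟨h.V₁.nonunits_le hnon, hϖ0, fun hinv => ?_, fun f hf => ?_⟩
  · -- `ϖ⁻¹ ∉ V₁`
    have h1 : h.data.v₁.valuation F ((ϖ : ↥R) : F)⁻¹ ≤ 1 := (h.mem_V₁_iff _).mp hinv
    rw [map_inv₀, hv, ← exp_neg, neg_neg] at h1
    have h2 : (1 : ℤᵐ⁰) = exp (0 : ℤ) := rfl
    rw [h2, exp_le_exp] at h1
    omega
  · -- factorisation
    have hvf : h.data.v₁.valuation F f ≠ 0 := (Valuation.ne_zero_iff _).mpr hf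
    obtain ⟨n, hn⟩ : ∃ n : ℤ, h.data.v₁.valuation F f = exp n :=
      ⟨log (h.data.v₁.valuation F f), (exp_log hvf).symm⟩
    have hve : h.data.v₁.valuation F (f / ((ϖ : ↥R) : F) ^ (-n)) = 1 := by
      rw [map_div₀, map_zpow₀, hv, hn, ← exp_zsmul, smul_eq_mul]
      have : -n * -1 = n := by ring
      rw [this, div_self exp_ne_zero]
    have he0 : f / ((ϖ : ↥R) : F) ^ (-n) ≠ 0 := div_ne_zero hf (zpow_ne_zero _ hϖ0)
    refine ⟨-n, f / ((ϖ : ↥R) : F) ^ (-n), (h.mem_V₁_iff _).mpr hve.le, ?_, ?_⟩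
    · refine (h.mem_V₁_iff _).mpr ?_
      rw [map_inv₀, hve, inv_one]
    · rw [mul_div_cancel₀ _ (zpow_ne_zero _ hϖ0)]

/-- `V₂` is a DVR with uniformiser `ϖ`. -/
theorem ssk2v_unif₂ (h : SsvAmb R ϖ y Ξ F₁ F₂ G) : Ssk2Unif h.V₂.toSubring (ϖ : F) :=
  ssk2v_unif₁ h.symm

/-- the hypotheses on an automorphism : `σ R ⊆ R`, `σ ≡ id mod ϖ` on `R`, `σ y = y`. -/
structure Ssk2vFix (R : Subring F) (ϖ : ↥R) (y : F) (σ : F ≃+* F) : Prop where
  map_mem : ∀ r : F, r ∈ R → σ r ∈ R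
  triv : ∀ r : F, r ∈ R → ∃ r' : F, r' ∈ R ∧ σ r - r = (ϖ : F) * r'
  fix : σ y = y

/-- `σ` preserves `R[y]` and is trivial modulo `ϖ R[y]`. -/
theorem Ssk2vFix.adjoin {σ : F ≃+* F} (hσ : Ssk2vFix R ϖ y σ) (x : F)
    (hx : x ∈ Algebra.adjoin ↥R {y}) :
    σ x ∈ Algebra.adjoin ↥R {y} ∧ ∃ x' ∈ Algebra.adjoin ↥R {y}, σ x - x = (ϖ : F) * x' := by
  have hϖmem : ((ϖ : ↥R) : F) ∈ Algebra.adjoin ↥R {y} :=
    Subalgebra.algebraMap_mem (Algebra.adjoin ↥R {y}) ϖ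
  induction hx using Algebra.adjoin_induction with
  | mem z hz =>
    rw [Set.mem_singleton_iff] at hz
    subst hz
    rw [hσ.fix]
    exact ⟨Algebra.subset_adjoin (Set.mem_singleton _), 0, Subalgebra.zero_mem _, by simp⟩
  | algebraMap r =>
    obtain ⟨r', hr', hrr'⟩ := hσ.triv (r : F) r.2
    exact ⟨Subalgebra.algebraMap_mem (Algebra.adjoin ↥R {y}) (⟨σ (r : F), hσ.map_mem _ r.2⟩ : ↥R),
      r', Subalgebra.algebraMap_mem (Algebra.adjoin ↥R {y}) (⟨r', hr'⟩ : ↥R), hrr'⟩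
  | add a b ha hb iha ihb =>
    obtain ⟨ha1, a', ha', haa'⟩ := iha
    obtain ⟨hb1, b', hb', hbb'⟩ := ihb
    refine ⟨by rw [map_add]; exact Subalgebra.add_mem _ ha1 hb1, a' + b',
      Subalgebra.add_mem _ ha' hb', ?_⟩
    rw [map_add, mul_add, ← haa', ← hbb']
    ring
  | mul a b ha hb iha ihb =>
    obtain ⟨ha1, a', ha', haa'⟩ := iha
    obtain ⟨hb1, b', hb', hbb'⟩ := ihb
    refine ⟨by rw [map_mul]; exact Subalgebra.mul_mem _ ha1 hb1, σ a * b' + a' * b,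
      Subalgebra.add_mem _ (Subalgebra.mul_mem _ ha1 hb') (Subalgebra.mul_mem _ ha' hb), ?_⟩
    rw [map_mul]
    have : σ a * σ b - a * b = σ a * (σ b - b) + (σ a - a) * b := by ring
    rw [this, haa', hbb']
    ring

/-- for every `x` there is `k` with `x * F₂(y)^k ∈ V₂`. -/
theorem ssk2v_exists_pow (h : SsvAmb R ϖ y Ξ F₁ F₂ G) (x : F) :
    ∃ k : ℕ, x * aeval y F₂ ^ k ∈ h.V₂ := by
  haveI := h.data.isDedekindDomain
  haveI := h.isFractionRing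
  by_cases hx : x = 0
  · exact ⟨0, by rw [hx, zero_mul]; exact h.V₂.zero_mem⟩
  by_cases hu : aeval y F₂ = 0
  · exact ⟨1, by rw [hu, pow_one, mul_zero]; exact h.V₂.zero_mem⟩
  have hu1 : h.data.v₂.valuation F (aeval y F₂) < 1 := (h.mem_nonunits_V₂_iff _).mp h.aeval₂_mem
  have hvu : h.data.v₂.valuation F (aeval y F₂) ≠ 0 := (Valuation.ne_zero_iff _).mpr hu
  have hvx : h.data.v₂.valuation F x ≠ 0 := (Valuation.ne_zero_iff _).mpr hx
  obtain ⟨m, hm⟩ : ∃ m : ℤ, h.data.v₂.valuation F (aeval y F₂) = exp m :=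
    ⟨log _, (exp_log hvu).symm⟩
  obtain ⟨n, hn⟩ : ∃ n : ℤ, h.data.v₂.valuation F x = exp n := ⟨log _, (exp_log hvx).symm⟩
  have hm0 : m < 0 := by
    have h2 : (1 : ℤᵐ⁰) = exp (0 : ℤ) := rfl
    rw [hm, h2, exp_lt_exp] at hu1
    exact hu1
  refine ⟨n.toNat, (h.mem_V₂_iff _).mpr ?_⟩
  rw [map_mul, map_pow, hn, hm, ← exp_nsmul, ← exp_add]
  have h2 : (1 : ℤᵐ⁰) = exp (0 : ℤ) := rfl
  rw [h2, exp_le_exp, nsmul_eq_mul]
  have h3 : (n.toNat : ℤ) = max n 0 := Int.toNat_eq_max n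
  rcases le_total n 0 with h0 | h0
  · have : (n.toNat : ℤ) = 0 := by rw [h3, max_eq_right h0]
    rw [this, zero_mul, add_zero]; exact h0
  · have : (n.toNat : ℤ) = n := by rw [h3, max_eq_left h0]
    rw [this]
    nlinarith

/-- `σ` preserves `V₁` and acts trivially on `V₁ / ϖ V₁` (one direction). -/
theorem ssk2v_map₁ (h : SsvAmb R ϖ y Ξ F₁ F₂ G) {σ : F ≃+* F} (hσ : Ssk2vFix R ϖ y σ)
    (x : F) (hx : x ∈ h.V₁) :
    σ x ∈ h.V₁ ∧ Ssk2Small h.V₁.toSubring (ϖ : F) (σ x - x) := by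
  obtain ⟨k, hk⟩ := ssk2v_exists_pow h x
  obtain ⟨u, hu⟩ : ∃ u : F, u = aeval y F₂ ^ k := ⟨_, rfl⟩
  rw [← hu] at hk
  have hu2mem : aeval y F₂ ∈ Algebra.adjoin ↥R {y} := by
    rw [Algebra.adjoin_singleton_eq_range_aeval]
    exact ⟨F₂, rfl⟩
  have huA : u ∈ Algebra.adjoin ↥R {y} := hu ▸ Subalgebra.pow_mem _ hu2mem k
  have huV₁ : u ∈ h.V₁ := ((h.mem_adjoin_iff u).mp huA).1
  have hv2 : h.V₁.valuation (aeval y F₂) = 1 :=
    le_antisymm ((h.V₁.valuation_le_one_iff _).mpr h.aeval₂_unit.1)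
      (not_lt.mp fun hlt => h.aeval₂_unit.2 ((h.V₁.mem_nonunits_iff).mpr hlt))
  have hvu : h.V₁.valuation u = 1 := by rw [hu, map_pow, hv2, one_pow]
  have hxuA : x * u ∈ Algebra.adjoin ↥R {y} :=
    (h.mem_adjoin_iff _).mpr ⟨mul_mem hx huV₁, hk⟩
  obtain ⟨-, d, hd, hdd⟩ := hσ.adjoin (x * u) hxuA
  obtain ⟨-, c, hc, hcc⟩ := hσ.adjoin u huA
  have hdV : d ∈ h.V₁ := ((h.mem_adjoin_iff d).mp hd).1
  have hcV : c ∈ h.V₁ := ((h.mem_adjoin_iff c).mp hc).1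
  have hϖV : h.V₁.valuation ((ϖ : ↥R) : F) < 1 := (h.V₁.mem_nonunits_iff).mp h.unif_mem₁
  -- `σ u` is a unit of `V₁`
  have hσu : σ u = u + (ϖ : F) * c := by rw [← hcc]; ring
  have hvσu : h.V₁.valuation (σ u) = 1 := by
    rw [hσu]
    have h1 : h.V₁.valuation ((ϖ : F) * c) < h.V₁.valuation u := by
      rw [hvu, map_mul]
      calc h.V₁.valuation ((ϖ : ↥R) : F) * h.V₁.valuation c
          ≤ h.V₁.valuation ((ϖ : ↥R) : F) * 1 :=
            mul_le_mul' le_rfl ((h.V₁.valuation_le_one_iff _).mpr hcV)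
        _ < 1 := by rw [mul_one]; exact hϖV
    rw [Valuation.map_add_eq_of_lt_left _ h1, hvu]
  have hσu0 : σ u ≠ 0 := by
    intro h0
    rw [h0, map_zero] at hvσu
    exact zero_ne_one hvσu
  have hinv : (σ u)⁻¹ ∈ h.V₁ := by
    refine (h.V₁.valuation_le_one_iff _).mp ?_
    rw [map_inv₀, hvσu, inv_one]
  -- `σ x = σ (x u) / σ u`
  have hσx : σ x = (x * u + (ϖ : F) * d) * (σ u)⁻¹ := by
    have h1 : σ (x * u) = x * u + (ϖ : F) * d := by rw [← hdd]; ring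
    rw [← h1, map_mul, mul_assoc, mul_inv_cancel₀ hσu0, mul_one]
  have hdiff : σ x - x = (ϖ : F) * ((d - x * c) * (σ u)⁻¹) := by
    have hone : (u + (ϖ : F) * c) * (σ u)⁻¹ = 1 := by rw [← hσu, mul_inv_cancel₀ hσu0]
    calc σ x - x = (x * u + (ϖ : F) * d) * (σ u)⁻¹ - x * ((u + (ϖ : F) * c) * (σ u)⁻¹) := by
          rw [hσx, hone, mul_one]
      _ = (ϖ : F) * ((d - x * c) * (σ u)⁻¹) := by ring
  have hsmall : Ssk2Small h.V₁.toSubring (ϖ : F) (σ x - x) :=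
    ⟨(d - x * c) * (σ u)⁻¹, mul_mem (sub_mem hdV (mul_mem hx hcV)) hinv, hdiff⟩
  refine ⟨?_, hsmall⟩
  have h3 : σ x = (σ x - x) + x := by ring
  rw [h3]
  exact add_mem (Ssk2Small.mem (V := h.V₁.toSubring) (h.V₁.nonunits_le h.unif_mem₁) hsmall) hx

/-- `σ` preserves `V₁` and acts trivially on `V₁ / ϖ V₁`. -/
theorem ssk2v_triv₁ (h : SsvAmb R ϖ y Ξ F₁ F₂ G) {σ : F ≃+* F} (hσ : Ssk2vFix R ϖ y σ)
    (hσ' : Ssk2vFix R ϖ y σ.symm) : Ssk2Triv h.V₁.toSubring (ϖ : F) σ :=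
  ⟨fun x hx => (ssk2v_map₁ h hσ x hx).1, fun x hx => (ssk2v_map₁ h hσ' x hx).1,
    fun x hx => (ssk2v_map₁ h hσ x hx).2⟩

/-- `σ` preserves `V₂` and acts trivially on `V₂ / ϖ V₂`. -/
theorem ssk2v_triv₂ (h : SsvAmb R ϖ y Ξ F₁ F₂ G) {σ : F ≃+* F} (hσ : Ssk2vFix R ϖ y σ)
    (hσ' : Ssk2vFix R ϖ y σ.symm) : Ssk2Triv h.V₂.toSubring (ϖ : F) σ :=
  ssk2v_triv₁ h.symm hσ hσ'

/-- an element `≡ 1 mod ϖ V` is `1 +` a non-unit. -/
theorem ssk2v_sub_one_mem_nonunits (V : ValuationSubring F) {ϖ x : F} (hϖ : ϖ ∈ V.nonunits)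
    (hx : Ssk2One V.toSubring ϖ x) : x - 1 ∈ V.nonunits := by
  obtain ⟨v, hv, hxv⟩ := hx
  rw [hxv, V.mem_nonunits_iff, map_mul]
  calc V.valuation ϖ * V.valuation v ≤ V.valuation ϖ * 1 :=
        mul_le_mul' le_rfl ((V.valuation_le_one_iff _).mpr hv)
    _ < 1 := by rw [mul_one]; exact (V.mem_nonunits_iff).mp hϖ

/-- **(K2)** at the two extensions : the double difference is `≡ 1` at `V₁` and at `V₂`. -/
theorem ssk2v_main (h : SsvAmb R ϖ y Ξ F₁ F₂ G) {σ τ : F ≃+* F}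
    (hσ : Ssk2vFix R ϖ y σ) (hσ' : Ssk2vFix R ϖ y σ.symm)
    (hτ : Ssk2vFix R ϖ y τ) (hτ' : Ssk2vFix R ϖ y τ.symm) (f : F) (hf : f ≠ 0) :
    σ (τ f) * f / (σ f * τ f) - 1 ∈ h.V₁.nonunits ∧
      σ (τ f) * f / (σ f * τ f) - 1 ∈ h.V₂.nonunits :=
  ⟨ssk2v_sub_one_mem_nonunits h.V₁ h.unif_mem₁
      (ssk2_main (ssk2v_unif₁ h) (ssk2v_triv₁ h hσ hσ') (ssk2v_triv₁ h hτ hτ') f hf),
    ssk2v_sub_one_mem_nonunits h.V₂ h.unif_mem₂
      (ssk2_main (ssk2v_unif₂ h) (ssk2v_triv₂ h hσ hσ') (ssk2v_triv₂ h hτ hτ') f hf)⟩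

end Ambient

section S18T

universe u

variable {A : Type*} [CommRing A] [IsDomain A] [IsDiscreteValuationRing A] [CharZero A]
variable {L : Type*} [Field L] [Algebra A L] [IsFractionRing A L]
variable {F : Type u} [Field F] [Algebra A F] [Algebra L F] [IsScalarTower A L F]
variable {ϖ : A}

/-- an automorphism fixing `t` and preserving the image of `A` preserves `A[t]`. -/
theorem ssk2v_smul_mem_chart (t : F) (γ : SemilinearAut L F) (hγt : γ • t = t)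
    (hγA : ∀ a : A, ∃ a' : A, γ • algebraMap A F a = algebraMap A F a') (z : F)
    (hz : z ∈ s18tChart A t) : γ • z ∈ s18tChart A t := by
  unfold s18tChart at hz ⊢
  induction hz using Algebra.adjoin_induction with
  | mem w hw =>
    rw [Set.mem_singleton_iff] at hw
    subst hw
    rw [hγt]
    exact Algebra.subset_adjoin (Set.mem_singleton _)
  | algebraMap a =>
    obtain ⟨a', ha'⟩ := hγA a
    rw [ha']
    exact Subalgebra.algebraMap_mem _ a'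
  | add a b ha hb iha ihb => rw [smul_add]; exact Subalgebra.add_mem _ iha ihb
  | mul a b ha hb iha ihb => rw [smul_mul']; exact Subalgebra.mul_mem _ iha ihb

/-- an automorphism fixing `t` and preserving the image of `A` preserves `P = s18tInt A t`. -/
theorem ssk2v_smul_mem_int (t : F) (γ : SemilinearAut L F) (hγt : γ • t = t)
    (hγA : ∀ a : A, ∃ a' : A, γ • algebraMap A F a = algebraMap A F a') (x : F)
    (hx : x ∈ s18tInt A t) : γ • x ∈ s18tInt A t := by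
  rw [mem_s18tInt] at hx ⊢
  set ψ : F →+* F := (SemilinearAut.toRingAut γ : F ≃+* F).toRingHom with hψ
  let φ : ↥(s18tChart A t) →+* ↥(s18tChart A t) :=
    RingHom.codRestrict (ψ.comp (s18tChart A t).val.toRingHom) (s18tChart A t)
      (fun z => ssk2v_smul_mem_chart t γ hγt hγA (z : F) z.2)
  have hcomp : (algebraMap ↥(s18tChart A t) F).comp φ =
      ψ.comp (algebraMap ↥(s18tChart A t) F) := by
    ext z
    rfl
  exact IsIntegral.map_of_comp_eq φ ψ hcomp hx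

/-- (C1) from triviality on `P_(ϖ)`. -/
theorem ssk2v_inertial_of_dvd (hϖ : Irreducible ϖ) (t : F) (ht : Transcendental L t)
    [FiniteDimensional L⟮t⟯ F] (γ : SemilinearAut L F) (hγt : γ • t = t)
    (hγA : ∀ a : A, ∃ a' : A, γ • algebraMap A F a = algebraMap A F a')
    (hγ : ∀ x ∈ s18tIntLoc A t (C ϖ) (s18t_prime_C hϖ), S18DvdGauss hϖ t (γ • x - x)) :
    SsInertial ϖ t γ := by
  intro x hx
  obtain ⟨z, hz, hxz⟩ := hγ x (s18tInt_le_intLoc hϖ t hx)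
  refine ⟨z, s18t_saturated hϖ t ht z hz ?_, hxz⟩
  rw [← hxz]
  exact Subring.sub_mem _ (ssk2v_smul_mem_int t γ hγt hγA x hx) hx

variable (hϖ : Irreducible ϖ) (t : F) {R : Subring F} [IsDiscreteValuationRing ↥R]
variable (hR₁ : s18tLoc A t (C ϖ) (s18t_prime_C hϖ) ≤ R)
variable (hR₂ : ∀ x ∈ R, x ∈ s18tIntLoc A t (C ϖ) (s18t_prime_C hϖ))
variable {ϖR : ↥R} {y : F} {Ξ F₁ F₂ G : (↥R)[X]}

include hR₁ hR₂ in
/-- **(C2) = (K2)** : the double difference of every `f ≠ 0` is `≡ 1 mod ϖ P_(ϖ)`. -/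
theorem ssk2v_dvdGauss (h : SsvAmb R ϖR y Ξ F₁ F₂ G) (hϖR : (ϖR : F) = algebraMap A F ϖ)
    (σ τ : SemilinearAut L F)
    (hσ : Ssk2vFix R ϖR y (SemilinearAut.toRingAut σ))
    (hσ' : Ssk2vFix R ϖR y (SemilinearAut.toRingAut σ).symm)
    (hτ : Ssk2vFix R ϖR y (SemilinearAut.toRingAut τ))
    (hτ' : Ssk2vFix R ϖR y (SemilinearAut.toRingAut τ).symm) (f : F) (hf : f ≠ 0) :
    S18DvdGauss hϖ t (ssnfDD σ τ f - 1) :=
  ((ssv_two hϖ t hR₁ hR₂ h hϖR).dvd_iff _).mpr (ssk2v_main h hσ hσ' hτ hτ' f hf)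

include hR₁ hR₂ in
/-- triviality on `P_(ϖ)`. -/
theorem ssk2v_dvd_of_fix (h : SsvAmb R ϖR y Ξ F₁ F₂ G) (hϖR : (ϖR : F) = algebraMap A F ϖ)
    (γ : SemilinearAut L F) (hγ : Ssk2vFix R ϖR y (SemilinearAut.toRingAut γ)) (x : F)
    (hx : x ∈ s18tIntLoc A t (C ϖ) (s18t_prime_C hϖ)) : S18DvdGauss hϖ t (γ • x - x) := by
  obtain ⟨-, x', hx', hxx'⟩ := hγ.adjoin x ((ssv_intLoc_iff hϖ t hR₁ hR₂ h x).mp hx)
  exact ⟨x', (ssv_intLoc_iff hϖ t hR₁ hR₂ h x').mpr hx', by rw [← hϖR]; exact hxx'⟩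

include hR₁ hR₂ in
/-- **(C1)** : `γ ≡ id mod ϖ P` on both chart rings. -/
theorem ssk2v_inertial (ht : Transcendental L t) [FiniteDimensional L⟮t⟯ F]
    (h : SsvAmb R ϖR y Ξ F₁ F₂ G) (hϖR : (ϖR : F) = algebraMap A F ϖ)
    (γ : SemilinearAut L F) (hγ : Ssk2vFix R ϖR y (SemilinearAut.toRingAut γ))
    (hγt : γ • t = t)
    (hγA : ∀ a : A, ∃ a' : A, γ • algebraMap A F a = algebraMap A F a') :
    SsInertial ϖ t γ ∧ SsInertial ϖ t⁻¹ γ := by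
  have key := ssk2v_dvd_of_fix hϖ t hR₁ hR₂ h hϖR γ hγ
  refine ⟨ssk2v_inertial_of_dvd hϖ t ht γ hγt hγA key, ?_⟩
  have ht' : Transcendental L t⁻¹ := by
    intro halg
    exact ht (by simpa using halg.inv)
  haveI hfd : FiniteDimensional L⟮t⁻¹⟯ F := by
    rw [s18ta_adjoin_inv]
    infer_instance
  have hγt' : γ • t⁻¹ = t⁻¹ := by rw [smul_inv'', hγt]
  refine ssk2v_inertial_of_dvd hϖ t⁻¹ ht' γ hγt' hγA fun x hx => ?_
  rw [s18t_dvdGauss_inv (L := L) hϖ t ht]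
  refine key x ?_
  have : s18tIntLoc A t⁻¹ (C ϖ) (s18t_prime_C hϖ) = s18tIntLoc A t (C ϖ) (s18t_prime_C hϖ) := by
    unfold s18tIntLoc
    rw [s18t_loc_inv (L := L) hϖ t ht]
  rw [← this]
  exact hx

end S18T

end Fermat.Agent.SS
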