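import Mathlib
import Fermat.Agent.G.Unr.Main

/-!
# Program S (S34), package Transfer: from the geometric monodromy statement on `J₀(N)[p^∞]`
to the Hecke–Galois datum

`SsMono N p q` : for every inertia element `τ` at `q` and every `p`-power torsion point `x` of
`J₀(N)`, `(τ - 1)² x = 0` (written `τ • τ • x + x = 2 • τ • x`).

`ss_unipotent_of_mono` : in a Hecke–Galois datum of level `N` away from `S` (`p ∈ S`, primes of `N`
in `S`), `SsMono N p q` with `q ≠ p` implies `H.ρ.IsUnipotentOnInertiaAt q`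
(`charpoly (ρ τ) = (X - 1)²` for all inertia elements `τ` at `q`).

Route = the S31 machinery (`G/Unr`): weak Frobenius density at `τ`, Lucas traces,
`V_b(T_ℓ, ℓ) = φ^b + ℓ^b φ^{-b} = τ + τ⁻¹ = 2` on `Θ(Hom_pe(Γ₀(N), ℤ/p^m))`, lattice argument.
-/

set_option autoImplicit false
set_option linter.unusedSectionVars false
set_option linter.unusedVariables false

noncomputable section

namespace Fermat.Agent.G

open CongruenceSubgroup ModularCurve AlgebraicCurve Fermat.Agent.S16LB Polynomial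

local notation "Qb" => AlgebraicClosure ℚ
local notation "GQ" => (AlgebraicClosure ℚ ≃ₐ[ℚ] AlgebraicClosure ℚ)

/-- the geometric monodromy statement: inertia at `q` acts on the `p`-power torsion of `J₀(N)`
through elements `τ` with `(τ - 1)² = 0`. -/
def SsMono (N : ℕ) [NeZero N] (p q : ℕ) : Prop :=
  ∀ P : ValuationSubring Qb, P.LiesOverPrime q → ∀ τ ∈ P.inertiaSubgroupIn ℚ,
    ∀ x : JZero N, (∃ n : ℕ, p ^ n • x = 0) → τ • (τ • x) + x = 2 • (τ • x)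

/-! ### rank two linear algebra -/

/-- in rank two, `charpoly f = X² - (tr f) X + det f`. -/
theorem sst_charpoly_rank_two {T : Type*} [CommRing T] [Nontrivial T] {V : Type*} [AddCommGroup V]
    [Module T V] [Module.Free T V] [Module.Finite T V] (hV : Module.finrank T V = 2)
    (f : Module.End T V) :
    LinearMap.charpoly f = X ^ 2 - C (LinearMap.trace T V f) * X + C (LinearMap.det f) := by
  set b := Module.finBasisOfFinrankEq T V hV with hb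
  rw [← LinearMap.charpoly_toMatrix f b, Matrix.charpoly_fin_two,
    LinearMap.trace_eq_matrix_trace T b, LinearMap.det_toMatrix b]

/-- if `f ≡ 1` modulo `I` then `det f ≡ 1` modulo `I` (rank two). -/
theorem sst_det_sub_one_mem {T : Type*} [CommRing T] [Nontrivial T] {V : Type*} [AddCommGroup V]
    [Module T V] [Module.Free T V] [Module.Finite T V] (hV : Module.finrank T V = 2)
    (I : Ideal T) (f : Module.End T V)
    (hf : ∀ v, f v - v ∈ I • (⊤ : Submodule T V)) : LinearMap.det f - 1 ∈ I := by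
  classical
  set b := Module.finBasisOfFinrankEq T V hV with hb
  have key : ∀ w ∈ I • (⊤ : Submodule T V), ∀ i, b.repr w i ∈ I := by
    intro w hw i
    refine Submodule.smul_induction_on hw ?_ ?_
    · intro a ha v _
      rw [map_smul, Finsupp.smul_apply, smul_eq_mul]
      exact Ideal.mul_mem_right _ _ ha
    · intro x y hx hy
      rw [map_add, Finsupp.add_apply]
      exact Ideal.add_mem _ hx hy
  have hM : ∀ i j, LinearMap.toMatrix b b f i j - (if i = j then 1 else 0) ∈ I := by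
    intro i j
    have h1 := key _ (hf (b j)) i
    rw [map_sub, Finsupp.sub_apply, Module.Basis.repr_self, Finsupp.single_apply] at h1
    rw [LinearMap.toMatrix_apply]
    have h2 : (if j = i then (1 : T) else 0) = if i = j then 1 else 0 := by
      by_cases h : i = j
      · subst h; simp
      · rw [if_neg h, if_neg (fun h' => h h'.symm)]
    rw [← h2]
    exact h1
  rw [← LinearMap.det_toMatrix b, Matrix.det_fin_two]
  set M := LinearMap.toMatrix b b f with hMdef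
  have h00 := hM 0 0
  have h11 := hM 1 1
  have h01 := hM 0 1
  have h10 := hM 1 0
  simp only [if_true, Fin.isValue, Fin.reduceEq, if_false, sub_zero] at h00 h11 h01 h10
  have e : M 0 0 * M 1 1 - M 0 1 * M 1 0 - 1
      = (M 0 0 - 1) * M 1 1 + (M 1 1 - 1) - M 0 1 * M 1 0 := by ring
  rw [e]
  exact Ideal.sub_mem _ (Ideal.add_mem _ (Ideal.mul_mem_right _ _ h00) h11)
    (Ideal.mul_mem_right _ _ h01)

/-! ### the geometric core -/

/-- (D') the Hecke congruence for an inertia element `τ` at `q` under `SsMono`: there is a finite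
normal level `E` such that whenever `φ^b` (`φ` a Frobenius lift at `ℓ ∤ N p`) agrees with `τ`
modulo `G_E`, then `ℓ^b ≡ 1 mod p^m` and `χ ∘ (V_b(tr_ℓ, ℓ) - 2) = 0` on `Hom_pe(Γ₀(N), ℤ/p^m)`. -/
theorem sst_hecke_congr (N : ℕ) [NeZero N] (p : ℕ) (hp : p.Prime) (q : ℕ) (hq : q.Prime)
    (hqp : q ≠ p) (hmono : SsMono N p q) (m : ℕ)
    (Θ : gprHomPE N (ZMod (p ^ m)) →+ JZero N) (hΘinj : Function.Injective Θ)
    (hΘ : ∀ (ℓ : ℕ) (hℓ : ℓ.Prime) (_ : ¬ ℓ ∣ N) (_ : ¬ ℓ ∣ p ^ m)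
      (χ χ' : gprHomPE N (ZMod (p ^ m))),
      (χ' : s16lbAb N →+ ZMod (p ^ m)) = (χ : s16lbAb N →+ ZMod (p ^ m)).comp (gprT N ℓ) →
        Θ χ' = heckeOperatorBar N ⟨ℓ, hℓ⟩ (Θ χ)) :
    ∃ E : IntermediateField ℚ Qb, FiniteDimensional ℚ E ∧ Normal ℚ E ∧
      ∀ (ℓ : ℕ) (_ : ℓ.Prime) (_ : ¬ ℓ ∣ N) (_ : ℓ ≠ p) (A : ValuationSubring Qb)
        (_ : A.LiesOverPrime ℓ) (φ : GQ) (_ : A.IsFrobeniusAt φ ℓ)
        (P : ValuationSubring Qb) (_ : P.LiesOverPrime q) (τ : GQ)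
        (_ : τ ∈ P.inertiaSubgroupIn ℚ) (b : ℕ),
        (φ ^ b)⁻¹ * τ ∈ E.fixingSubgroup →
        ℓ ^ b ≡ 1 [MOD p ^ m] ∧
        ∀ χ ∈ gprHomPE N (ZMod (p ^ m)),
          χ.comp (gunLuc (R := AddMonoid.End (s16lbAb N)) (gprT N ℓ) ℓ b - 2) = 0 := by
  classical
  have hn0 : p ^ m ≠ 0 := pow_ne_zero _ hp.ne_zero
  have : NeZero (p ^ m) := ⟨hn0⟩
  have : Finite (s16lbAb N →+ ZMod (p ^ m)) := gunh_finite_hom N _
  have hfinX : (Set.range Θ).Finite := Set.finite_range Θ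
  obtain ⟨E₁, hE₁fin, hE₁norm, hE₁⟩ := gop_finite_fixing_normal N (Set.range Θ) hfinX
  obtain ⟨ζ, hζ⟩ := HasEnoughRootsOfUnity.exists_primitiveRoot Qb (p ^ m)
  have hcl : IsAlgClosure ℚ Qb := AlgebraicClosure.instIsAlgClosure ℚ
  have halg : Algebra.IsAlgebraic ℚ Qb := AlgebraicClosure.isAlgebraic ℚ
  have hnormQb : Normal ℚ Qb := IsAlgClosure.normal ℚ Qb
  have : FiniteDimensional ℚ (IntermediateField.adjoin ℚ {ζ}) :=
    IntermediateField.adjoin.finiteDimensional (Algebra.IsIntegral.isIntegral ζ)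
  have : FiniteDimensional ℚ E₁ := hE₁fin
  have hE₀fin : FiniteDimensional ℚ (E₁ ⊔ IntermediateField.adjoin ℚ {ζ} :
      IntermediateField ℚ Qb) := IntermediateField.finiteDimensional_sup E₁ _
  refine ⟨IntermediateField.normalClosure ℚ (E₁ ⊔ IntermediateField.adjoin ℚ {ζ} :
      IntermediateField ℚ Qb) Qb, normalClosure.is_finiteDimensional ℚ _ Qb,
    normalClosure.normal ℚ _ Qb, ?_⟩
  set E : IntermediateField ℚ Qb := IntermediateField.normalClosure ℚ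
    (E₁ ⊔ IntermediateField.adjoin ℚ {ζ} : IntermediateField ℚ Qb) Qb with hEdef
  have hEnorm : Normal ℚ E := normalClosure.normal ℚ _ Qb
  have hE₀le : (E₁ ⊔ IntermediateField.adjoin ℚ {ζ} : IntermediateField ℚ Qb) ≤ E :=
    IntermediateField.le_normalClosure _
  have hfixX : ∀ u ∈ E.fixingSubgroup, ∀ χ, u • Θ χ = Θ χ := fun u hu χ =>
    hE₁ u (gop_mem_fixing_of_le (le_sup_left.trans hE₀le) u hu) _ ⟨χ, rfl⟩
  have hfixζ : ∀ u ∈ E.fixingSubgroup, u ζ = ζ := fun u hu =>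
    (IntermediateField.mem_fixingSubgroup_iff E u).mp hu ζ
      (hE₀le (le_sup_right (α := IntermediateField ℚ Qb)
        (IntermediateField.mem_adjoin_simple_self ℚ ζ)))
  intro ℓ hℓ hℓN hℓp A hA φ hφ P hP τ hτ b hu
  have hdvd : ∀ {r : ℕ}, r.Prime → r ≠ p → ¬ r ∣ p ^ m := fun hr hrp hd =>
    hrp ((Nat.prime_dvd_prime_iff_eq hr hp).mp (hr.dvd_of_dvd_pow hd))
  -- the element of `G_E`
  obtain ⟨u, hudef⟩ : ∃ u : GQ, u = (φ ^ b)⁻¹ * τ := ⟨_, rfl⟩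
  rw [← hudef] at hu
  have hφb : φ ^ b = τ * u⁻¹ := by rw [hudef]; group
  have hφbi : (φ ^ b)⁻¹ = τ⁻¹ * (τ * u * τ⁻¹) := by rw [hudef]; group
  -- the cyclotomic congruence
  have hζ1 : ζ ^ (p ^ m) = 1 := hζ.pow_eq_one
  have c1 : (φ ^ b) ζ = ζ ^ (ℓ ^ b) :=
    gunh_frob_pow hℓ (hdvd hℓ hℓp) A hA φ hφ ζ hζ1 b
  have c3 : (φ ^ b) ζ = ζ := by
    rw [hφb, AlgEquiv.mul_apply, hfixζ _ (E.fixingSubgroup.inv_mem hu)]
    exact gun_cyc_inertia hq (hdvd hq hqp) P hP τ hτ ζ hζ1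
  have hpow : ζ ^ (ℓ ^ b) = ζ ^ 1 := by rw [← c1, c3, pow_one]
  have hfo : IsOfFinOrder ζ :=
    isOfFinOrder_iff_pow_eq_one.mpr ⟨p ^ m, Nat.pos_of_ne_zero hn0, hζ1⟩
  have hmod : ℓ ^ b ≡ 1 [MOD p ^ m] := by
    have := hfo.pow_eq_pow_iff_modEq.mp hpow
    rwa [← hζ.eq_orderOf] at this
  refine ⟨hmod, fun χ hχ => ?_⟩
  set x : JZero N := Θ ⟨χ, hχ⟩ with hxdef
  have hx : (p ^ m) • x = 0 := by
    rw [hxdef, ← map_nsmul]
    have : (p ^ m) • (⟨χ, hχ⟩ : gprHomPE N (ZMod (p ^ m))) = 0 := by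
      apply Subtype.ext
      apply AddMonoidHom.ext
      intro a
      show (p ^ m) • χ a = 0
      rw [nsmul_eq_mul, ZMod.natCast_self, zero_mul]
    rw [this, map_zero]
  have hx1 : ∃ k : ℕ, p ^ k • x = 0 := ⟨m, hx⟩
  have hx0 : x = Θ ⟨χ, hχ⟩ := hxdef
  have hux : ∀ v ∈ E.fixingSubgroup, v • x = x := fun v hv => by rw [hx0]; exact hfixX v hv _
  -- D2
  obtain ⟨χ₁, hχ₁, hΘ₁⟩ := gun_theta_luc N (p ^ m) Θ hΘ ℓ hℓ hℓN (hdvd hℓ hℓp) b ⟨χ, hχ⟩
  -- D1 and the evaluation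
  have hD1 := gun_luc_torsion N p hp ℓ hℓ hℓN hℓp A hA φ hφ b x hx1
  have e1 : φ ^ b • x = τ • x := by
    rw [hφb, mul_smul, hux _ (E.fixingSubgroup.inv_mem hu)]
  have e3 : (φ ^ b)⁻¹ • x = τ⁻¹ • x := by
    rw [hφbi, mul_smul, hux _ (gunh_conj_mem hEnorm τ u hu)]
  have hy : (p ^ m) • (τ⁻¹ • x) = 0 := by
    rw [← gunh_smul_nsmul, hx]; exact smul_zero (A := JZero N) τ⁻¹
  have e5 : ℓ ^ b • (τ⁻¹ • x) = τ⁻¹ • x := by
    have := gunh_nsmul_eq_of_modEq hmod hy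
    rwa [one_nsmul] at this
  have hm := hmono P hP τ hτ (τ⁻¹ • x) ⟨m, hy⟩
  rw [smul_inv_smul] at hm
  have hkey : gunLuc (R := Module.End ℤ (JZero N)) (heckeOperatorBar N ⟨ℓ, hℓ⟩) ℓ b x = 2 • x := by
    rw [hD1, e1, e3, e5, hm]
  -- back to characters
  have h2 : Θ χ₁ = Θ ((2 : ℕ) • (⟨χ, hχ⟩ : gprHomPE N (ZMod (p ^ m)))) := by
    rw [hΘ₁, map_nsmul, ← hx0, hkey]
  have h3 := hΘinj h2
  have h4 : (χ₁ : s16lbAb N →+ ZMod (p ^ m)) = (2 : ℕ) • χ := by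
    rw [h3]; rfl
  rw [hχ₁] at h4
  refine AddMonoidHom.ext fun γ => ?_
  have h5 := DFunLike.congr_fun h4 γ
  change χ ((gunLuc (R := AddMonoid.End (s16lbAb N)) (gprT N ℓ) ℓ b - 2) γ) = 0
  have h6 : (gunLuc (R := AddMonoid.End (s16lbAb N)) (gprT N ℓ) ℓ b - 2) γ
      = gunLuc (R := AddMonoid.End (s16lbAb N)) (gprT N ℓ) ℓ b γ - (γ + γ) := by
    have e2' : (2 : AddMonoid.End (s16lbAb N)) = 1 + 1 := one_add_one_eq_two.symm
    rw [e2']
    rfl
  rw [h6, map_sub, map_add]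
  have h7 : χ (gunLuc (R := AddMonoid.End (s16lbAb N)) (gprT N ℓ) ℓ b γ) = (2 : ℕ) • χ γ := h5
  rw [h7, two_nsmul, sub_self]

section Main

variable {p : ℕ} {N : ℕ} [NeZero N] {S : Finset ℕ}
  {𝒪 : Type} [CommRing 𝒪] [IsDomain 𝒪] [IsDiscreteValuationRing 𝒪]
  [IsAdicComplete (IsLocalRing.maximalIdeal 𝒪) 𝒪]
  {θ : CuspForm.heckeAlgebra N 2 (↑S : Set ℕ) →+* IsLocalRing.ResidueField 𝒪}
  {T : Type} [CommRing T] [IsLocalRing T] [IsNoetherianRing T]
  [IsAdicComplete (IsLocalRing.maximalIdeal T) T] [Algebra 𝒪 T] [IsLocalHom (algebraMap 𝒪 T)]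
  [Module.Finite 𝒪 T] [Module.Free 𝒪 T]

/-- continuity of the determinant. -/
theorem sst_det_congr (ρ : GaloisRepAdic T) (n : ℕ) (L : IntermediateField ℚ Qb)
    (hL : ∀ σ : GQ, (∀ x ∈ L, σ x = x) →
      ∀ v : ρ.V, ρ.ρ σ v - v ∈ (IsLocalRing.maximalIdeal T ^ n) • (⊤ : Submodule T ρ.V))
    (g g' : GQ) (h : ∀ x ∈ L, (g'⁻¹ * g) x = x) :
    LinearMap.det (ρ.ρ g) - LinearMap.det (ρ.ρ g') ∈ IsLocalRing.maximalIdeal T ^ n := by
  have hg : g = g' * (g'⁻¹ * g) := by rw [mul_inv_cancel_left]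
  have h1 : LinearMap.det (ρ.ρ g) - LinearMap.det (ρ.ρ g')
      = LinearMap.det (ρ.ρ g') * (LinearMap.det (ρ.ρ (g'⁻¹ * g)) - 1) := by
    conv_lhs => rw [hg, map_mul, map_mul]
    ring
  rw [h1]
  exact Ideal.mul_mem_left _ _ (sst_det_sub_one_mem ρ.finrank_eq _ _ (hL _ h))

/-- the key estimate: `tr ρ(τ) ≡ 2` and `det ρ(τ) ≡ 1` modulo every power of the maximal ideal. -/
theorem sst_trace_det_mem (hp : p.Prime)
    (hp𝒪 : (p : 𝒪) ∈ IsLocalRing.maximalIdeal 𝒪) (hpS : p ∈ S)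
    (hNS : ∀ q : ℕ, q.Prime → q ∣ N → q ∈ S)
    (H : CuspForm.HeckeGaloisRepDatum N (↑S : Set ℕ) 𝒪 θ T)
    (q : ℕ) (hq : q.Prime) (hqp : q ≠ p) (hmono : SsMono N p q)
    (P : ValuationSubring Qb) (hP : P.LiesOverPrime q)
    (τ : GQ) (hτ : τ ∈ P.inertiaSubgroupIn ℚ) (n : ℕ) :
    LinearMap.trace T H.ρ.V (H.ρ.ρ τ) - 2 ∈ IsLocalRing.maximalIdeal T ^ n ∧
      LinearMap.det (H.ρ.ρ τ) - 1 ∈ IsLocalRing.maximalIdeal T ^ n := by
  obtain ⟨c, c₁, hc₁, hlat⟩ := gun_lattice N (↑S : Set ℕ) p hp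
  set m : ℕ := n + c with hm
  obtain ⟨Θ, hΘinj, hΘ⟩ := gun_theta N (p ^ m) (pow_pos hp.pos m)
  obtain ⟨E₀, hE₀fd, hE₀n, hD⟩ := sst_hecke_congr N p hp q hq hqp hmono m Θ hΘinj hΘ
  obtain ⟨L, hLfd, hL⟩ := H.ρ.isAdicContinuous n
  have hcl : IsAlgClosure ℚ Qb := AlgebraicClosure.instIsAlgClosure ℚ
  have hnorm : Normal ℚ Qb := IsAlgClosure.normal ℚ Qb
  have hfd0 : FiniteDimensional ℚ (E₀ ⊔ L : IntermediateField ℚ Qb) :=
    IntermediateField.finiteDimensional_sup E₀ L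
  set E : IntermediateField ℚ Qb :=
    IntermediateField.normalClosure ℚ (E₀ ⊔ L : IntermediateField ℚ Qb) Qb with hEdef
  have hEfd : FiniteDimensional ℚ E := normalClosure.is_finiteDimensional ℚ _ Qb
  have hEn : Normal ℚ E := normalClosure.normal ℚ _ Qb
  have hsupE : (E₀ ⊔ L : IntermediateField ℚ Qb) ≤ E := IntermediateField.le_normalClosure _
  have hE₀E : E₀ ≤ E := le_trans le_sup_left hsupE
  have hLE : L ≤ E := le_trans le_sup_right hsupE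
  have hfix₀ : ∀ σ : GQ, σ ∈ E.fixingSubgroup → σ ∈ E₀.fixingSubgroup := by
    intro σ hσ
    rw [IntermediateField.mem_fixingSubgroup_iff] at hσ ⊢
    exact fun x hx => hσ x (hE₀E hx)
  have hfixL : ∀ σ : GQ, σ ∈ E.fixingSubgroup → ∀ x ∈ L, σ x = x := by
    intro σ hσ x hx
    rw [IntermediateField.mem_fixingSubgroup_iff] at hσ
    exact hσ x (hLE hx)
  obtain ⟨ℓ, hℓ, hℓS, A, hA, φ, hφ, b, hb⟩ := gunm_exists_frob E hEn τ S
  have hℓN : ¬ ℓ ∣ N := fun hd => hℓS (hNS ℓ hℓ hd)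
  have hℓp : ℓ ≠ p := fun e => hℓS (e ▸ hpS)
  have hℓS' : ℓ ∉ (↑S : Set ℕ) := fun hh => hℓS (Finset.mem_coe.mp hh)
  obtain ⟨hmod, hzero⟩ := hD ℓ hℓ hℓN hℓp A hA φ hφ P hP τ hτ b (hfix₀ _ hb)
  have hpT : (p : T) ∈ IsLocalRing.maximalIdeal T := gunm_p_mem hp𝒪
  have hpn : ((p ^ m : ℕ) : T) ∈ IsLocalRing.maximalIdeal T ^ n := by
    rw [Nat.cast_pow, hm, pow_add]
    exact Ideal.mul_mem_right _ _ (Ideal.pow_mem_pow hpT n)
  constructor
  · -- the trace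
    have key1 := gunm_trace_congr H.ρ n L hL τ (φ ^ b) (hfixL _ hb)
    have key3 : LinearMap.trace T H.ρ.V (H.ρ.ρ (φ ^ b)) - 2 ∈ IsLocalRing.maximalIdeal T ^ n := by
      rw [gunm_trace_frob_pow H hℓ hℓN hℓS' A hA φ hφ b]
      set x : CuspForm.heckeAlgebra N 2 (↑S : Set ℕ) :=
        gunLuc (CuspForm.heckeAlgebra.T hℓ hℓN hℓS') ℓ b - 2 with hx
      set e : AddMonoid.End (s16lbAb N) :=
        gunLuc (R := AddMonoid.End (s16lbAb N)) (gprT N ℓ) ℓ b - 2 with he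
      have hcorr : GunCorr N (x : Module.End ℂ (CuspForm (Gamma0 N) 2)) e := by
        have hval : ∀ (t : CuspForm.heckeAlgebra N 2 (↑S : Set ℕ)) (d : ℤ) (k : ℕ),
            ((gunLuc t d k : CuspForm.heckeAlgebra N 2 (↑S : Set ℕ)) :
              Module.End ℂ (CuspForm (Gamma0 N) 2))
            = gunLuc (t : Module.End ℂ (CuspForm (Gamma0 N) 2)) d k := fun t d k =>
          gunLuc_map (CuspForm.heckeAlgebra N 2 (↑S : Set ℕ)).val.toRingHom t d k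
        have h2 : (((2 : CuspForm.heckeAlgebra N 2 (↑S : Set ℕ))) :
            Module.End ℂ (CuspForm (Gamma0 N) 2)) = 2 :=
          map_ofNat (CuspForm.heckeAlgebra N 2 (↑S : Set ℕ)).val.toRingHom 2
        have hxc : (x : Module.End ℂ (CuspForm (Gamma0 N) 2))
            = gunLuc (CuspForm.heckeTLin 2 hℓ hℓN) ℓ b - 2 := by
          rw [hx, AddSubgroupClass.coe_sub, hval, CuspForm.heckeAlgebra.coe_T, h2]
        rw [hxc, he]
        exact gunCorr_sub (gunCorr_luc (gunCorr_T hℓ hℓN) ℓ b) gunCorr_two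
      obtain ⟨w, hw⟩ := hlat m x e hcorr hzero
      have hmc : m - c = n := by omega
      rw [hmc] at hw
      have h3 := congrArg H.π hw
      rw [map_nsmul, map_nsmul, nsmul_eq_mul, nsmul_eq_mul] at h3
      obtain ⟨u, hu⟩ := gunm_isUnit_natCast (T := T) hpT hc₁
      have h4 : H.π x = (↑u⁻¹ : T) * (((p ^ n : ℕ) : T) * H.π w) := by
        rw [← h3, ← mul_assoc, ← hu, Units.inv_mul, one_mul]
      have h5 : H.π x = H.π (gunLuc (CuspForm.heckeAlgebra.T hℓ hℓN hℓS') ℓ b) - 2 := by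
        rw [hx, map_sub, map_ofNat]
      rw [← h5, h4]
      refine Ideal.mul_mem_left _ _ (Ideal.mul_mem_right _ _ ?_)
      rw [Nat.cast_pow]
      exact Ideal.pow_mem_pow hpT n
    have hsum : LinearMap.trace T H.ρ.V (H.ρ.ρ τ) - 2
        = (LinearMap.trace T H.ρ.V (H.ρ.ρ τ) - LinearMap.trace T H.ρ.V (H.ρ.ρ (φ ^ b)))
          + (LinearMap.trace T H.ρ.V (H.ρ.ρ (φ ^ b)) - 2) := by ring
    rw [hsum]
    exact Ideal.add_mem _ key1 key3
  · -- the determinant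
    have key1 := sst_det_congr H.ρ n L hL τ (φ ^ b) (hfixL _ hb)
    have hdetφ : LinearMap.det (H.ρ.ρ φ) = (ℓ : T) := by
      have h1 := sst_charpoly_rank_two H.ρ.finrank_eq (H.ρ.ρ φ)
      rw [H.charpoly_frob ℓ hℓ hℓN hℓS' A hA φ hφ] at h1
      have h2 := congrArg (fun f : T[X] => f.coeff 0) h1
      simp only [coeff_add, coeff_sub, coeff_X_pow, coeff_C_mul, coeff_X_zero, mul_zero,
        coeff_C_zero] at h2
      simpa using h2.symm
    have key3 : LinearMap.det (H.ρ.ρ (φ ^ b)) - 1 ∈ IsLocalRing.maximalIdeal T ^ n := by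
      rw [map_pow, map_pow, hdetφ]
      obtain ⟨k, hk⟩ : ∃ k : ℤ, (ℓ ^ b : ℤ) = 1 + (p ^ m : ℕ) * k := by
        have h1 := (Int.natCast_modEq_iff.mpr hmod).symm.dvd
        obtain ⟨k, hk⟩ := h1
        refine ⟨k, ?_⟩
        push_cast at hk ⊢
        linarith
      have h2 : ((ℓ : T)) ^ b - 1 = ((p ^ m : ℕ) : T) * (k : T) := by
        have := congrArg (Int.cast (R := T)) hk
        push_cast at this ⊢
        rw [this]; ring
      rw [h2]
      exact Ideal.mul_mem_right _ _ hpn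
    have hsum : LinearMap.det (H.ρ.ρ τ) - 1
        = (LinearMap.det (H.ρ.ρ τ) - LinearMap.det (H.ρ.ρ (φ ^ b)))
          + (LinearMap.det (H.ρ.ρ (φ ^ b)) - 1) := by ring
    rw [hsum]
    exact Ideal.add_mem _ key1 key3

/-- **S34 modulo geometry**: in a Hecke–Galois datum of level `N` away from `S`, the monodromy
statement `SsMono N p q` (`q ≠ p`) implies that inertia at `q` acts unipotently. -/
theorem ss_unipotent_of_mono (hp : p.Prime)
    (hp𝒪 : (p : 𝒪) ∈ IsLocalRing.maximalIdeal 𝒪) (hpS : p ∈ S)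
    (hNS : ∀ q : ℕ, q.Prime → q ∣ N → q ∈ S)
    (H : CuspForm.HeckeGaloisRepDatum N (↑S : Set ℕ) 𝒪 θ T)
    (q : ℕ) (hq : q.Prime) (hqp : q ≠ p) (hmono : SsMono N p q) :
    H.ρ.IsUnipotentOnInertiaAt q := by
  intro P hP τ hτ
  have hbot := Ideal.iInf_pow_eq_bot_of_isLocalRing (IsLocalRing.maximalIdeal T)
    Ideal.IsPrime.ne_top'
  have htr : LinearMap.trace T H.ρ.V (H.ρ.ρ τ) - 2 = 0 := by
    have hmem : LinearMap.trace T H.ρ.V (H.ρ.ρ τ) - 2
        ∈ ⨅ n : ℕ, IsLocalRing.maximalIdeal T ^ n :=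
      Ideal.mem_iInf.mpr fun n =>
        (sst_trace_det_mem hp hp𝒪 hpS hNS H q hq hqp hmono P hP τ hτ n).1
    rwa [hbot] at hmem
  have hdet : LinearMap.det (H.ρ.ρ τ) - 1 = 0 := by
    have hmem : LinearMap.det (H.ρ.ρ τ) - 1 ∈ ⨅ n : ℕ, IsLocalRing.maximalIdeal T ^ n :=
      Ideal.mem_iInf.mpr fun n =>
        (sst_trace_det_mem hp hp𝒪 hpS hNS H q hq hqp hmono P hP τ hτ n).2
    rwa [hbot] at hmem
  rw [sst_charpoly_rank_two H.ρ.finrank_eq, sub_eq_zero.mp htr, sub_eq_zero.mp hdet]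
  simp only [map_ofNat, map_one]
  ring

end Main

end Fermat.Agent.G
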