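import Mathlib
import Fermat.Agent.SS.Transfer
import Fermat.Agent.G.S37.Pull

/-!
# Program S (S34), leaf (AUX) : lowering an auxiliary level

For a prime `a ∤ N` with `a + 1` prime to `p` (in the application `q ∈ {2, 3}`, `a = 5 - q`,
`a + 1` a power of `q ≠ p`) : `SsMono (N * a) p q → SsMono N p q`.

Proof: the degeneracy pullback `α_a^* : J₀(N) → J₀(N a)` (`g37pPull`, Program G / S37) is Galois
equivariant and its kernel is killed by `a + 1` (`α_* α^* = a + 1`, `g37p_pull_eq_zero`).
-/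

set_option autoImplicit false
set_option linter.unusedSectionVars false
set_option linter.unusedVariables false

noncomputable section

namespace Fermat.Agent.G

open ModularCurve AlgebraicCurve

local notation "Qb" => AlgebraicClosure ℚ

/-- an element of an additive group killed by two coprime integers is zero -/
theorem ssaux_eq_zero_of_coprime {G : Type*} [AddCommGroup G] {m n : ℕ} (h : Nat.Coprime m n)
    (z : G) (hm : m • z = 0) (hn : n • z = 0) : z = 0 := by
  have h1 : ((m : ℤ) * Nat.gcdA m n + (n : ℤ) * Nat.gcdB m n) • z = z := by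
    rw [← Nat.gcd_eq_gcd_ab, h, Nat.cast_one, one_smul]
  rw [← h1, add_smul, mul_comm (m : ℤ), mul_comm (n : ℤ), mul_smul, mul_smul, natCast_zsmul,
    natCast_zsmul, hm, hn, smul_zero, smul_zero, add_zero]

/-- (AUX) lowering the auxiliary level. -/
theorem ss_mono_of_aux (N a : ℕ) [NeZero N] [NeZero a] (p q : ℕ) (ha : a.Prime) (haN : ¬ a ∣ N)
    (hpa : Nat.Coprime p (a + 1)) (h : SsMono (N * a) p q) : SsMono N p q := by
  intro P hP τ hτ x hx
  obtain ⟨n, hn⟩ := hx
  -- the point at level `N a`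
  have hy : ∃ n : ℕ, p ^ n • g37pPull N a x = 0 := ⟨n, by rw [← map_nsmul, hn, map_zero]⟩
  have hmono := h P hP τ hτ (g37pPull N a x) hy
  -- the defect
  set z : JZero N := τ • (τ • x) + x - 2 • (τ • x) with hz
  have hpull : g37pPull N a z = 0 := by
    rw [hz, map_sub, map_add, map_nsmul, g37p_pull_galois, g37p_pull_galois, hmono, sub_self]
  have h1 : (a + 1) • z = 0 := g37p_pull_eq_zero N a ha haN z hpull
  have h2 : p ^ n • z = 0 := by
    have hτx : p ^ n • (τ • x) = 0 := by
      rw [← gunh_smul_nsmul, hn]; exact smul_zero (A := JZero N) τ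
    have hττx : p ^ n • (τ • (τ • x)) = 0 := by
      rw [← gunh_smul_nsmul, hτx]; exact smul_zero (A := JZero N) τ
    rw [hz, nsmul_sub, nsmul_add, hττx, hn, smul_comm (p ^ n) 2, hτx, smul_zero, add_zero,
      sub_zero]
  have hz0 : z = 0 := ssaux_eq_zero_of_coprime (Nat.Coprime.pow_left n hpa) z h2 h1
  exact sub_eq_zero.mp hz0

/-- (AUX) for `q = 2` : auxiliary level `3`. -/
theorem ss_mono_two_of_aux (N : ℕ) [NeZero N] (p : ℕ) (hp : p.Prime) (hp2 : p ≠ 2)
    (hN : ¬ 3 ∣ N) (h : SsMono (N * 3) p 2) : SsMono N p 2 := by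
  refine ss_mono_of_aux N 3 p 2 Nat.prime_three hN ?_ h
  have h4 : (3 + 1 : ℕ) = 2 ^ 2 := by norm_num
  rw [h4]
  exact Nat.Coprime.pow_right 2 ((Nat.coprime_primes hp Nat.prime_two).mpr hp2)

/-- (AUX) for `q = 3` : auxiliary level `2`. -/
theorem ss_mono_three_of_aux (N : ℕ) [NeZero N] (p : ℕ) (hp : p.Prime) (hp3 : p ≠ 3)
    (hN : ¬ 2 ∣ N) (h : SsMono (N * 2) p 3) : SsMono N p 3 := by
  refine ss_mono_of_aux N 2 p 3 Nat.prime_two hN ?_ h
  exact (Nat.coprime_primes hp Nat.prime_three).mpr hp3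

end Fermat.Agent.G
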